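import Mathlib
import Fermat.Prelude.Def_AlgebraicCurve_Repartitions
import Fermat.Agent.S24.FF.Basic

/-!
# RR library: basic definitions

`IsFF1 K F`: the abstract interface "function field in one variable all of whose places have
degree one" on which the whole Riemann-Roch library is built (no hypothesis on the characteristic,
no chosen parameter).
-/

set_option autoImplicit false

open AlgebraicCurve WithZero

namespace Fermat.Agent.RR

variable (K F : Type*) [Field K] [Field F] [Algebra K F]

/-- Function field in one variable, all places of degree one, with the Riemann bound along the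
multiples of one divisor of positive degree. -/
class IsFF1 : Prop extends HasPrincipalDivisors K F where
  residue_surjective : ∀ v : Place K F, Function.Surjective (algebraMap K v.ResidueField)
  nonempty_place : Nonempty (Place K F)
  riemann_bound : ∃ (B : Divisor K F) (γ : ℤ), 0 < Divisor.degree B ∧
    ∀ l : ℕ, Divisor.degree (l • B) - γ ≤ (Module.finrank K (riemannRochSpace (l • B)) : ℤ)

/-- The adele ring (ring of repartitions). -/
abbrev Adele : Type _ := ↥(repartitions K F)

variable {K F}

/-- `ℓ(D)`. -/
noncomputable def ell (D : Divisor K F) : ℕ := Module.finrank K (riemannRochSpace D)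

/-- The index of speciality `i(D) = dim H¹(D)`. -/
noncomputable def idx (D : Divisor K F) : ℕ := Module.finrank K (H1 D)

section divOf

variable (K) [HasPrincipalDivisors K F]

open Classical in
/-- The principal divisor of `f` (`0` for `f = 0`). -/
noncomputable def divOf (f : F) : Divisor K F :=
  if h : f ≠ 0 then (HasPrincipalDivisors.exists_divisor (K := K) f h).choose else 0

@[simp]
theorem divOf_apply (f : F) (v : Place K F) : divOf K f v = v.ord f := by
  unfold divOf
  split_ifs with h
  · exact (HasPrincipalDivisors.exists_divisor (K := K) f h).choose_spec.1 v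
  · rw [not_not] at h
    simp [h]

@[simp]
theorem degree_divOf (f : F) : Divisor.degree (divOf K f) = 0 := by
  unfold divOf
  split_ifs with h
  · exact (HasPrincipalDivisors.exists_divisor (K := K) f h).choose_spec.2
  · simp

theorem divOf_mul {f g : F} (hf : f ≠ 0) (hg : g ≠ 0) :
    divOf K (f * g) = divOf K f + divOf K g := by
  ext v
  simp [v.ord_mul hf hg]

theorem divOf_inv (f : F) : divOf K f⁻¹ = - divOf K f := by
  ext v
  simp [v.ord_inv]

@[simp]
theorem divOf_zero : divOf K (0 : F) = 0 := by
  ext v; simp

@[simp]
theorem divOf_one : divOf K (1 : F) = 0 := by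
  ext v; simp

theorem divOf_algebraMap (c : K) : divOf K (algebraMap K F c) = 0 := by
  ext v
  simp [S24.Place.ord_algebraMap]

/-- only finitely many poles -/
theorem finite_ord_neg (f : F) : {v : Place K F | v.ord f < 0}.Finite := by
  refine (divOf K f).support.finite_toSet.subset fun v hv => ?_
  have hv : v.ord f < 0 := hv
  simp only [Finset.mem_coe, Finsupp.mem_support_iff, divOf_apply]
  omega

theorem finite_ord_ne_zero (f : F) : {v : Place K F | v.ord f ≠ 0}.Finite := by
  refine (divOf K f).support.finite_toSet.subset fun v hv => ?_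
  simpa using hv

end divOf

/-- `{f | ord_v f ≥ -n}` as a `K`-subspace of `F`. -/
def ball (v : Place K F) (n : ℤ) : Submodule K F where
  carrier := {f | v.adicValuation f ≤ exp n}
  zero_mem' := by simp
  add_mem' := by
    intro f g (hf : v.adicValuation f ≤ exp n) (hg : v.adicValuation g ≤ exp n)
    exact (Valuation.map_add _ _ _).trans (max_le hf hg)
  smul_mem' := by
    intro c f (hf : v.adicValuation f ≤ exp n)
    show v.adicValuation (c • f) ≤ exp n
    rw [Algebra.smul_def, map_mul]
    exact (mul_le_of_le_one_left' (v.adicValuation_algebraMap_le_one c)).trans hf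

theorem mem_ball {v : Place K F} {n : ℤ} {f : F} : f ∈ ball v n ↔ v.adicValuation f ≤ exp n :=
  Iff.rfl

theorem mem_ball_iff {v : Place K F} {n : ℤ} {f : F} : f ∈ ball v n ↔ f = 0 ∨ -n ≤ v.ord f :=
  v.adicValuation_le_exp_iff

theorem ball_mono (v : Place K F) {m n : ℤ} (h : m ≤ n) : ball v m ≤ ball v n :=
  fun _ hf => le_trans hf (exp_le_exp.mpr h)

theorem mem_riemannRochSpace_iff_ball {D : Divisor K F} {f : F} :
    f ∈ riemannRochSpace D ↔ ∀ v, f ∈ ball v (D v) := Iff.rfl

theorem mem_repartitionsOf_iff_ball {D : Divisor K F} {α : Adele K F} :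
    α ∈ repartitionsOf D ↔ ∀ v, (α : Place K F → F) v ∈ ball v (D v) := Iff.rfl

theorem mem_ball_zero_iff {v : Place K F} {f : F} : f ∈ ball v 0 ↔ f ∈ v.toValuationSubring := by
  rw [mem_ball_iff]
  constructor
  · rintro (rfl | h)
    · exact zero_mem _
    · by_cases hf : f = 0
      · rw [hf]; exact zero_mem _
      · exact (S24.Place.mem_iff_ord_nonneg v hf).mpr (by simpa using h)
  · intro h
    right
    simpa using S24.Place.ord_nonneg_of_mem v h

theorem mul_mem_ball {v : Place K F} {m n : ℤ} {f g : F} (hf : f ∈ ball v m) (hg : g ∈ ball v n) :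
    f * g ∈ ball v (m + n) := by
  rw [mem_ball] at *
  rw [map_mul, exp_add]
  exact mul_le_mul' hf hg

end Fermat.Agent.RR
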