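import Fermat.Agent.RR.SepParam
import Fermat.Agent.S24

/-!
# RR library: the adelic genus / Riemann genus of `Qbar(X₀(N))` is the classical genus formula

Consequence of the solved statement S24 (genus defined by the degree of the canonical divisor)
and of Riemann-Roch (`genus_eq_genusFF`).
-/

set_option autoImplicit false
set_option synthInstance.maxHeartbeats 400000
set_option maxHeartbeats 1000000

open AlgebraicCurve ModularCurve

namespace Fermat.Agent.RR

open Fermat.Agent.S24 Fermat.Agent.RED

theorem isSepParam_jF (N : ℕ) [NeZero N] : IsSepParam Kb (jF N) :=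
  IsSepParam.of_charZero (isFiniteParam_jF_of N (CPAlt.charpolyCoeff N))

instance isFF1_FN (N : ℕ) [NeZero N] : IsFF1 Kb (FN N) := (isSepParam_jF N).isFF1

theorem finrank_kaehler_FN (N : ℕ) [NeZero N] : Module.finrank (FN N) Ω[FN N⁄Kb] = 1 :=
  (isSepParam_jF N).finrank_kaehler

/-- the adelic genus of `Qbar(X₀(N))` -/
theorem genusFF_FN (N : ℕ) [NeZero N] : (genusFF Kb (FN N) : ℚ) = genusFormula N := by
  have := hasCanonicalDivisor (finrank_kaehler_FN N)
  rw [← genus_eq_genusFF (finrank_kaehler_FN N)]
  exact S24.result N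

/-- the Riemann genus of `Qbar(X₀(N))` -/
theorem gR_FN (N : ℕ) [NeZero N] : (gR Kb (FN N) : ℚ) = genusFormula N := by
  rw [(isSepParam_jF N).gR_eq_genusFF]
  exact_mod_cast genusFF_FN N

end Fermat.Agent.RR
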