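import Fermat.Agent.RR.SepParam
import Fermat.Agent.RED.FF.Degree
import Fermat.Agent.RED.FF.NonSpecial
import Fermat.Agent.RED.RB.Defs
import Fermat.Prelude.Def_AlgebraicCurve_DivisorPushPull

/-!
# RR library: local orders of differentials and Riemann-Hurwitz (any characteristic)
-/

set_option autoImplicit false
set_option linter.unusedSectionVars false
set_option linter.style.haveILetI false

open AlgebraicCurve WithZero KaehlerDifferential IntermediateField

namespace Fermat.Agent.RR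

section Local

variable {K F : Type*} [Field K] [Field F] [Algebra K F] [IsFF1 K F]
variable (h1 : Module.finrank F Ω[F⁄K] = 1)

include h1

/-- a differential `f dg` with `f, g` regular at `v` is regular at `v` -/
theorem ordDifferential_nonneg (v : Place K F) {f g : F} (hf : f ∈ ball v 0) (hg : g ∈ ball v 0)
    (hne : f • D K F g ≠ 0) : 0 ≤ v.ordDifferential (f • D K F g) := by
  by_contra hcon
  obtain ⟨a, ha0, ha, hres⟩ := exists_weil_asingle_ne_zero h1 v hne
  apply hres
  rw [weil_asingle, smul_smul]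
  refine resAt_eq_zero v ?_ hg
  have := mul_mem_ball (v := v) (m := 0) (n := 0) (f := a) (g := f)
    (mem_ball_iff.mpr (Or.inr (by omega))) hf
  rwa [add_zero] at this

/-- `ord_v (dt) = 0` for EVERY uniformizer `t` at `v` -/
theorem ordDifferential_D_of_ord_eq_one (v : Place K F) {t : F} (ht : v.ord t = 1) :
    v.ordDifferential (D K F t) = 0 := by
  have ht0 : t ≠ 0 := by rintro rfl; simp at ht
  have hne : D K F t ≠ 0 := D_ne_zero_of_ord_eq_one v ht
  have h0 : 0 ≤ v.ordDifferential (D K F t) := by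
    have := ordDifferential_nonneg h1 v (f := 1) (g := t) (one_mem_ball_zero v)
      (mem_ball_iff.mpr (Or.inr (by omega))) (by rwa [one_smul])
    rwa [one_smul] at this
  by_contra hcon
  have hpos : 0 < v.ordDifferential (D K F t) := lt_of_le_of_ne h0 (Ne.symm hcon)
  have h2 := weil_asingle_eq_zero h1 v (D K F t) (a := t⁻¹)
    (Or.inr (by rw [v.ord_inv, ht]; omega))
  have h3 := weil_asingle_inv v ht
  rw [weil_smul, ← map_smul, smul_eq_mul, mul_one, h2] at h3
  exact zero_ne_one h3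

theorem exists_eq_smul_D (v : Place K F) {t : F} (ht : v.ord t = 1) (ω : Ω[F⁄K]) :
    ∃ c : F, ω = c • D K F t := by
  have htop := (finrank_eq_one_iff_of_nonzero _ (D_ne_zero_of_ord_eq_one v ht)).mp h1
  have hmem : ω ∈ Submodule.span F {D K F t} := by rw [htop]; trivial
  obtain ⟨c, hc⟩ := Submodule.mem_span_singleton.mp hmem
  exact ⟨c, hc.symm⟩

theorem ordDifferential_smul_D (v : Place K F) {t : F} (ht : v.ord t = 1) {c : F} (hc : c ≠ 0) :
    v.ordDifferential (c • D K F t) = v.ord c := by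
  rw [ordDifferential_smul h1 v hc (D_ne_zero_of_ord_eq_one v ht),
    ordDifferential_D_of_ord_eq_one h1 v ht, add_zero]

/-- the derivative of a regular function with respect to a uniformizer is regular -/
theorem exists_D_eq_of_mem (v : Place K F) {t : F} (ht : v.ord t = 1) {g : F}
    (hg : g ∈ ball v 0) : ∃ c ∈ ball v 0, D K F g = c • D K F t := by
  obtain ⟨c, hc⟩ := exists_eq_smul_D h1 v ht (D K F g)
  refine ⟨c, ?_, hc⟩
  rcases eq_or_ne c 0 with rfl | hc0
  · exact zero_mem _
  have hne : D K F g ≠ 0 := by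
    rw [hc]
    exact smul_ne_zero hc0 (D_ne_zero_of_ord_eq_one v ht)
  have := ordDifferential_nonneg h1 v (f := 1) (g := g) (one_mem_ball_zero v) hg
    (by rwa [one_smul])
  rw [one_smul, hc, ordDifferential_smul_D h1 v ht hc0] at this
  exact mem_ball_iff.mpr (Or.inr (by omega))

/-- `dg = t^(e-1) w dt` with `w` regular, `e = ord_v g`; `w` is a unit if `e ≠ 0` in `K`. -/
theorem exists_D_eq_zpow (v : Place K F) {t : F} (ht : v.ord t = 1) {g : F} (hg : g ≠ 0) :
    ∃ w ∈ ball v 0, D K F g = (t ^ (v.ord g - 1) * w) • D K F t ∧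
      (((v.ord g : ℤ) : K) ≠ 0 → w ≠ 0 ∧ v.ord w = 0) := by
  have ht0 : t ≠ 0 := by rintro rfl; simp at ht
  set e := v.ord g with he
  set u := g * t ^ (-e) with hu
  have hu0 : u ≠ 0 := mul_ne_zero hg (zpow_ne_zero _ ht0)
  have hordu : v.ord u = 0 := by
    rw [hu, v.ord_mul hg (zpow_ne_zero _ ht0), v.ord_zpow, ht]; omega
  have hgu : g = u * t ^ e := by
    rw [hu, mul_assoc, ← zpow_add₀ ht0]; simp
  obtain ⟨c, hc, hDu⟩ := exists_D_eq_of_mem h1 v ht (g := u)
    (mem_ball_iff.mpr (Or.inr (by omega)))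
  refine ⟨algebraMap K F ((e : ℤ) : K) * u + t * c, ?_, ?_, ?_⟩
  · refine (ball v 0).add_mem ?_ ?_
    · have := mul_mem_ball (v := v) (m := 0) (n := 0)
        (mem_ball_zero_iff.mpr (v.algebraMap_mem' ((e : ℤ) : K)))
        (mem_ball_iff.mpr (Or.inr (by omega)) : u ∈ ball v 0)
      rwa [add_zero] at this
    · have := mul_mem_ball (v := v) (m := 0) (n := 0)
        (mem_ball_iff.mpr (Or.inr (by omega)) : t ∈ ball v 0) hc
      rwa [add_zero] at this
  · conv_lhs => rw [hgu]
    rw [Derivation.leibniz, Derivation.leibniz_zpow, hDu, smul_smul, ← Int.cast_smul_eq_zsmul F,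
      smul_smul, smul_smul, ← add_smul]
    congr 1
    have h2 : t ^ e = t ^ (e - 1) * t := by
      rw [← zpow_add_one₀ ht0]; simp
    rw [h2, map_intCast]
    ring
  · intro heK
    have heF : algebraMap K F ((e : ℤ) : K) ≠ 0 := (map_ne_zero (algebraMap K F)).mpr heK
    have hA : algebraMap K F ((e : ℤ) : K) * u ≠ 0 := mul_ne_zero heF hu0
    have hAord : v.ord (algebraMap K F ((e : ℤ) : K) * u) = 0 := by
      rw [v.ord_mul heF hu0, S24.Place.ord_algebraMap, hordu, add_zero]
    rcases eq_or_ne c 0 with rfl | hc0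
    · rw [mul_zero, add_zero]
      exact ⟨hA, hAord⟩
    · have hB : t * c ≠ 0 := mul_ne_zero ht0 hc0
      have hBord : 0 < v.ord (t * c) := by
        rw [v.ord_mul ht0 hc0, ht]
        have := (mem_ball_iff.mp hc).resolve_left hc0
        omega
      have hlt : v.ord (algebraMap K F ((e : ℤ) : K) * u) < v.ord (t * c) := by omega
      have hsum := S24.Place.ord_add_eq_of_lt v hA hB hlt
      refine ⟨?_, by rw [hsum, hAord]⟩
      intro h0
      have : algebraMap K F ((e : ℤ) : K) * u = -(t * c) := by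
        rw [eq_neg_iff_add_eq_zero]; exact h0
      rw [this, S24.Place.ord_neg] at hlt
      exact lt_irrefl _ hlt

/-- `ord_v (dg) ≥ ord_v g - 1` -/
theorem ord_sub_one_le_ordDifferential_D (v : Place K F) {g : F} (hg : D K F g ≠ 0) :
    v.ord g - 1 ≤ v.ordDifferential (D K F g) := by
  have hg0 : g ≠ 0 := by rintro rfl; simp at hg
  obtain ⟨t, ht, -⟩ := exists_dCoord_eq v
  have ht0 : t ≠ 0 := by rintro rfl; simp at ht
  obtain ⟨w, hw, hD, -⟩ := exists_D_eq_zpow h1 v ht hg0
  have hw0 : w ≠ 0 := by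
    rintro rfl
    apply hg
    rw [hD, mul_zero, zero_smul]
  rw [hD, ordDifferential_smul_D h1 v ht (mul_ne_zero (zpow_ne_zero _ ht0) hw0),
    v.ord_mul (zpow_ne_zero _ ht0) hw0, v.ord_zpow, ht]
  have := (mem_ball_iff.mp hw).resolve_left hw0
  omega

/-- tame case: `ord_v (dg) = ord_v g - 1` if `ord_v g ≠ 0` in `K` -/
theorem ordDifferential_D_eq (v : Place K F) {g : F} (hg : ((v.ord g : ℤ) : K) ≠ 0) :
    v.ordDifferential (D K F g) = v.ord g - 1 := by
  have hg0 : g ≠ 0 := by rintro rfl; simp at hg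
  obtain ⟨t, ht, -⟩ := exists_dCoord_eq v
  have ht0 : t ≠ 0 := by rintro rfl; simp at ht
  obtain ⟨w, hw, hD, hw'⟩ := exists_D_eq_zpow h1 v ht hg0
  obtain ⟨hw0, hword⟩ := hw' hg
  rw [hD, ordDifferential_smul_D h1 v ht (mul_ne_zero (zpow_ne_zero _ ht0) hw0),
    v.ord_mul (zpow_ne_zero _ ht0) hw0, v.ord_zpow, ht, hword]
  ring

end Local

section Relative

variable {K F₁ F₂ : Type*} [Field K] [Field F₁] [Field F₂] [Algebra K F₁] [Algebra K F₂]
  [Algebra F₁ F₂] [IsScalarTower K F₁ F₂]

/-- tower law over `K(x)`, `x ∈ F₁ ⊆ F₂`. -/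
theorem finrank_adjoin_algebraMap (x : F₁) :
    Module.finrank K⟮algebraMap F₁ F₂ x⟯ F₂ = Module.finrank K⟮x⟯ F₁ * Module.finrank F₁ F₂ := by
  let φ : F₁ →ₐ[K] F₂ := IsScalarTower.toAlgHom K F₁ F₂
  rw [Module.finrank_mul_finrank K⟮x⟯ F₁ F₂]
  have hmap : (K⟮x⟯).map φ = K⟮algebraMap F₁ F₂ x⟯ := by
    rw [adjoin_map, Set.image_singleton]
    rfl
  let e : K⟮x⟯ ≃+* K⟮algebraMap F₁ F₂ x⟯ :=
    ((equivMap K⟮x⟯ φ).trans (equivOfEq hmap)).toRingEquiv
  refine (Algebra.finrank_eq_of_equiv_equiv e (RingEquiv.refl F₂) ?_).symm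
  ext a
  rfl

/-- `dx = c dt` in `F₁` implies the same relation in `F₂` -/
theorem D_algebraMap_eq_smul {x t c : F₁} (h : D K F₁ x = c • D K F₁ t) :
    D K F₂ (algebraMap F₁ F₂ x) = algebraMap F₁ F₂ c • D K F₂ (algebraMap F₁ F₂ t) := by
  have := congrArg (KaehlerDifferential.map K K F₁ F₂) h
  rw [map_smul, KaehlerDifferential.map_D, KaehlerDifferential.map_D] at this
  rw [this, algebraMap_smul]

variable [IsFF1 K F₁] [IsFF1 K F₂] [Algebra.IsIntegral F₁ F₂]

/-- **local Riemann-Hurwitz inequality**: `ord_Q (dx) ≥ e ord_P (dx) + e - 1`. -/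
theorem le_ordDifferential_algebraMap (h1 : Module.finrank F₁ Ω[F₁⁄K] = 1)
    (h2 : Module.finrank F₂ Ω[F₂⁄K] = 1) (w : Place K F₂) {x : F₁}
    (hx : D K F₂ (algebraMap F₁ F₂ x) ≠ 0) :
    (w.ramificationIndex F₁ : ℤ) * (w.restrict F₁).ordDifferential (D K F₁ x)
      + w.ramificationIndex F₁ - 1 ≤ w.ordDifferential (D K F₂ (algebraMap F₁ F₂ x)) := by
  obtain ⟨t, ht, -⟩ := exists_dCoord_eq (w.restrict F₁)
  obtain ⟨c, hc⟩ := exists_eq_smul_D h1 (w.restrict F₁) ht (D K F₁ x)
  have hc2 := D_algebraMap_eq_smul (F₂ := F₂) hc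
  have hc0 : c ≠ 0 := by
    rintro rfl
    apply hx
    rw [hc2, map_zero, zero_smul]
  have hc0' : algebraMap F₁ F₂ c ≠ 0 := (map_ne_zero _).mpr hc0
  have hDt : D K F₂ (algebraMap F₁ F₂ t) ≠ 0 := by
    intro h
    apply hx
    rw [hc2, h, smul_zero]
  rw [hc, ordDifferential_smul_D h1 _ ht hc0, hc2, ordDifferential_smul h2 w hc0' hDt,
    w.ord_restrict c]
  have := ord_sub_one_le_ordDifferential_D h2 w hDt
  rw [w.ord_restrict t, ht, mul_one] at this
  omega

end Relative

section Fundamental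

variable {K F : Type*} [Field K] [Field F] [Algebra K F] [IsAlgClosed K]

/-- a nonconstant function whose only pole is `v` -/
theorem exists_only_pole {x : F} (hx : RED.IsSepParam K x) (v : Place K F) :
    ∃ f : F, f ∉ Set.range (algebraMap K F) ∧ v.ord f < 0 ∧ ∀ u : Place K F, u ≠ v → 0 ≤ u.ord f := by
  classical
  obtain ⟨n, hn⟩ := Int.eq_ofNat_of_zero_le (by have := hx.gR_nonneg; omega : 0 ≤ RED.gR K F + 1)
  set A : Divisor K F := Finsupp.single v (n : ℤ) with hA
  have h1 := hx.riemann_inequality A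
  rw [hA, hx.degree_single] at h1
  have h2 : 2 ≤ RED.ell (Finsupp.single v (n : ℤ) : Divisor K F) := by
    have : (2 : ℤ) ≤ RED.ell (Finsupp.single v (n : ℤ) : Divisor K F) := by
      have hn' : (n : ℤ) = RED.gR K F + 1 := hn.symm
      omega
    exact_mod_cast this
  have hex : ∃ f ∈ riemannRochSpace A, f ∉ Set.range (algebraMap K F) := by
    by_contra hcon
    push Not at hcon
    have hle : riemannRochSpace A ≤ riemannRochSpace (0 : Divisor K F) := by
      intro f hf
      rw [hx.L_zero, Submodule.mem_one]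
      exact hcon f hf
    have := hx.finite_L_zero
    have h3 := Submodule.finrank_mono hle
    have h4 := hx.ell_zero
    unfold RED.ell at h2 h4
    rw [← hA] at h2
    omega
  obtain ⟨f, hf, hfK⟩ := hex
  have hf0 : f ≠ 0 := fun h => hfK ⟨0, by rw [h, map_zero]⟩
  rw [RED.mem_L_iff_of_ne_zero hf0] at hf
  have hu : ∀ u : Place K F, u ≠ v → 0 ≤ u.ord f := by
    intro u hu
    have := hf u
    rwa [hA, Finsupp.single_eq_of_ne hu, add_zero] at this
  refine ⟨f, hfK, ?_, hu⟩
  by_contra hv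
  apply hfK
  apply hx.mem_range_of_forall_ord_nonneg
  intro u
  by_cases huv : u = v
  · subst huv; omega
  · exact hu u huv

end Fundamental

section Fundamental2

variable {K F₁ F₂ : Type*} [Field K] [Field F₁] [Field F₂] [Algebra K F₁] [Algebra K F₂]
  [Algebra F₁ F₂] [IsScalarTower K F₁ F₂]

theorem finiteDimensional_of_isSepParam {x : F₁}
    (hx₂ : RED.IsSepParam K (algebraMap F₁ F₂ x)) : FiniteDimensional F₁ F₂ := by
  have h := finrank_adjoin_algebraMap (K := K) (F₂ := F₂) x
  have hpos := hx₂.finrank_pos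
  apply FiniteDimensional.of_finrank_pos
  by_contra h0
  have h0 : Module.finrank F₁ F₂ = 0 := by omega
  rw [h0, mul_zero] at h
  omega

variable [IsAlgClosed K]

/-- `∑_{w ∣ v} e_w = [F₂ : F₁]` in any characteristic. -/
theorem sum_ramificationIndex_of_isSepParam [Algebra.IsIntegral F₁ F₂]
    [HasPrincipalDivisors K F₂] {x : F₁} (hx₁ : RED.IsSepParam K x)
    (hx₂ : RED.IsSepParam K (algebraMap F₁ F₂ x)) (v : Place K F₁) :
    ∑ w ∈ v.fiber F₂, (w.ramificationIndex F₁ : ℤ) = Module.finrank F₁ F₂ := by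
  obtain ⟨f, hfK, hv, hu⟩ := exists_only_pole hx₁ v
  have hfK' : algebraMap F₁ F₂ f ∉ Set.range (algebraMap K F₂) := by
    rintro ⟨a, ha⟩
    apply hfK
    refine ⟨a, (algebraMap F₁ F₂).injective ?_⟩
    rw [← IsScalarTower.algebraMap_apply, ha]
  have d1 := hx₁.degree_polarDiv_of_not_mem_range hfK
  have d2 := hx₂.degree_polarDiv_of_not_mem_range hfK'
  rw [finrank_adjoin_algebraMap] at d2
  have s1 : (RED.polarDiv K f).support ⊆ {v} := by
    intro u hu'
    rw [Finsupp.mem_support_iff, hx₁.polarDiv_apply] at hu'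
    rw [Finset.mem_singleton]
    by_contra huv
    apply hu'
    have := hu u huv
    rw [max_eq_right (by omega)]
  have s2 : (RED.polarDiv K (algebraMap F₁ F₂ f)).support ⊆ v.fiber F₂ := by
    intro w hw
    rw [Finsupp.mem_support_iff, hx₂.polarDiv_apply, w.ord_restrict] at hw
    rw [Place.mem_fiber]
    by_contra hwv
    apply hw
    have := hu _ hwv
    rw [max_eq_right]
    have : 0 ≤ (w.ramificationIndex F₁ : ℤ) * (w.restrict F₁).ord f := by positivity
    omega
  rw [hx₁.degree_eq_sum_of_subset _ {v} s1, Finset.sum_singleton, hx₁.polarDiv_apply,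
    max_eq_left (by omega)] at d1
  rw [hx₂.degree_eq_sum_of_subset _ (v.fiber F₂) s2] at d2
  have h3 : ∀ w ∈ v.fiber F₂, RED.polarDiv K (algebraMap F₁ F₂ f) w
      = (w.ramificationIndex F₁ : ℤ) * (- v.ord f) := by
    intro w hw
    rw [hx₂.polarDiv_apply, w.ord_restrict, Place.mem_fiber.mp hw, max_eq_left]
    · ring
    · have : 0 ≤ (w.ramificationIndex F₁ : ℤ) * (- v.ord f) :=
        mul_nonneg (by positivity) (by omega)
      linarith
  rw [Finset.sum_congr rfl h3, ← Finset.sum_mul] at d2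
  push_cast at d2
  rw [← d1, mul_comm] at d2
  exact mul_left_cancel₀ (by omega) d2

theorem fundamentalIdentity_of_isSepParam [Algebra.IsIntegral F₁ F₂]
    [HasPrincipalDivisors K F₂] {x : F₁} (hx₁ : RED.IsSepParam K x)
    (hx₂ : RED.IsSepParam K (algebraMap F₁ F₂ x)) : FundamentalIdentity K F₁ F₂ where
  sum_ramificationIndex_mul_deg v := by
    rw [hx₁.deg_eq_one v, ← sum_ramificationIndex_of_isSepParam hx₁ hx₂ v, Nat.cast_one, mul_one]
    refine Finset.sum_congr rfl fun w _ => ?_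
    rw [hx₂.deg_eq_one w, Nat.cast_one, mul_one]

/-- **relative Riemann-Hurwitz inequality** (any characteristic), keeping only the contribution of
the poles of `x`. -/
theorem rh_rel' {x : F₁} (hx₁ : RED.IsSepParam K x)
    (hx₂ : RED.IsSepParam K (algebraMap F₁ F₂ x)) :
    (Module.finrank F₁ F₂ : ℤ) * (2 * RED.gR K F₁ - 2)
      + (Module.finrank F₁ F₂ : ℤ) * Nat.card {v : Place K F₁ // v.ord x < 0}
      - Nat.card {v : Place K F₂ // v.ord (algebraMap F₁ F₂ x) < 0} ≤ 2 * RED.gR K F₂ - 2 := by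
  classical
  haveI := finiteDimensional_of_isSepParam hx₂
  haveI : Algebra.IsIntegral F₁ F₂ := Algebra.IsIntegral.of_finite F₁ F₂
  haveI := hx₁.isFF1
  haveI := hx₂.isFF1
  haveI : HasPrincipalDivisors K F₂ := hx₂.hasPrincipalDivisors
  haveI := fundamentalIdentity_of_isSepParam hx₁ hx₂
  have h1 := hx₁.finrank_kaehler
  have h2 := hx₂.finrank_kaehler
  have hD1 := hx₁.D_ne_zero
  have hD2 := hx₂.D_ne_zero
  obtain ⟨W1, hW1⟩ := (hasCanonicalDivisor h1).exists_divisor _ hD1
  obtain ⟨W2, hW2⟩ := (hasCanonicalDivisor h2).exists_divisor _ hD2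
  have dW1 := degree_kaehler h1 hD1 hW1
  have dW2 := degree_kaehler h2 hD2 hW2
  rw [← hx₁.gR_eq_genusFF] at dW1
  rw [← hx₂.gR_eq_genusFF] at dW2
  have c1 : Nat.card {v : Place K F₁ // v.ord x < 0} = hx₁.finite_poles.toFinset.card :=
    Nat.subtype_card _ (fun v => by simp)
  have c2 : Nat.card {v : Place K F₂ // v.ord (algebraMap F₁ F₂ x) < 0}
      = hx₂.finite_poles.toFinset.card :=
    Nat.subtype_card _ (fun v => by simp)
  have key : Divisor.pullback F₂ (W1 + RED.sumPts hx₁.finite_poles.toFinset)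
      - RED.sumPts hx₂.finite_poles.toFinset ≤ W2 := by
    intro w
    rw [Finsupp.sub_apply, Divisor.pullback_apply, Finsupp.add_apply, hW1, hW2,
      RED.sumPts_apply, RED.sumPts_apply]
    have hloc := le_ordDifferential_algebraMap h1 h2 w hD2
    have he := w.ramificationIndex_pos (F := F₁)
    have hord := w.ord_restrict x
    by_cases hw : w.ord (algebraMap F₁ F₂ x) < 0
    · have hv : (w.restrict F₁).ord x < 0 := by
        by_contra hcon
        have : 0 ≤ (w.ramificationIndex F₁ : ℤ) * (w.restrict F₁).ord x :=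
          mul_nonneg (by positivity) (by omega)
        omega
      rw [if_pos (by simpa using hv), if_pos (by simpa using hw)]
      linarith
    · have hv : ¬ (w.restrict F₁).ord x < 0 := by
        intro hcon
        have : (w.ramificationIndex F₁ : ℤ) * (w.restrict F₁).ord x < 0 :=
          mul_neg_of_pos_of_neg (by positivity) hcon
        omega
      rw [if_neg (by simpa using hv), if_neg (by simpa using hw)]
      have : (1 : ℤ) ≤ w.ramificationIndex F₁ := by exact_mod_cast he
      linarith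
  have hdeg := hx₂.degree_mono key
  rw [map_sub, Divisor.degree_pullback, map_add, dW1, dW2, hx₁.degree_sumPts,
    hx₂.degree_sumPts] at hdeg
  rw [c1, c2]
  linarith

/-- the same in the shape of `RED/RB/Defs.lean` -/
theorem rhRel {x : F₁} (hx₁ : RED.IsSepParam K x)
    (hx₂ : RED.IsSepParam K (algebraMap F₁ F₂ x)) : RED.RB.RHRel K F₁ F₂ x :=
  rh_rel' hx₁ hx₂

end Fundamental2

end Fermat.Agent.RR
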