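import Fermat.Agent.RR.LSpace
import Fermat.Agent.S27.RR1Core

/-!
# RR library, WP R2a: API for the adele ring (Prelude `repartitions`, `repartitionsOf`)
-/

set_option autoImplicit false

open AlgebraicCurve WithZero

namespace Fermat.Agent.RR

variable {K F : Type*} [Field K] [Field F] [Algebra K F]

section Basic

variable [HasPrincipalDivisors K F]

theorem finite_not_le_one (f : F) : {v : Place K F | ¬ v.adicValuation f ≤ 1}.Finite := by
  simp only [Place.not_adicValuation_le_one_iff]
  exact finite_ord_neg K f

/-- The generating set of `repartitions` is already a subalgebra. -/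
theorem mem_repartitions_iff {α : Place K F → F} :
    α ∈ repartitions K F ↔ {v : Place K F | v.ord (α v) < 0}.Finite := by
  rw [S27.Core.mem_repartitions_iff_of (finite_not_le_one (K := K))]
  simp only [Place.not_adicValuation_le_one_iff]

theorem Adele.finite_poles (α : Adele K F) :
    {v : Place K F | v.ord ((α : Place K F → F) v) < 0}.Finite :=
  mem_repartitions_iff.mp α.2

/-- every adele lies in some `A(D)`, with `D` above any given divisor -/
theorem exists_mem_repartitionsOf (α : Adele K F) (D₀ : Divisor K F) :
    ∃ D : Divisor K F, D₀ ≤ D ∧ α ∈ repartitionsOf D :=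
  S27.Core.exists_mem_repartitionsOf_of (finite_not_le_one (K := K)) α D₀

end Basic

/-- evaluation of an adele at a place -/
def aeval (v : Place K F) : Adele K F →ₐ[F] F :=
  (Pi.evalAlgHom F (fun _ : Place K F => F) v).comp (repartitions K F).val

theorem aeval_apply (v : Place K F) (α : Adele K F) : aeval v α = (α : Place K F → F) v := rfl

theorem Adele.ext' {α β : Adele K F} (h : ∀ v, aeval v α = aeval v β) : α = β :=
  Subtype.ext (funext h)

open Classical in
/-- the adele with component `a` at the places of `S` and `0` elsewhere (`S` arbitrary;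
it is an adele because `a` has finitely many poles) -/
noncomputable def indic [HasPrincipalDivisors K F] (S : Set (Place K F)) : F →ₗ[F] Adele K F where
  toFun a := ⟨fun v => if v ∈ S then a else 0, mem_repartitions_iff.mpr
    ((finite_ord_neg K a).subset fun v hv => by
      have hv : v.ord (if v ∈ S then a else 0) < 0 := hv
      split_ifs at hv with h
      · exact hv
      · simp at hv)⟩
  map_add' a b := by
    apply Subtype.ext; funext v
    show (if v ∈ S then a + b else 0) = (if v ∈ S then a else 0) + (if v ∈ S then b else 0)
    split_ifs <;> simp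
  map_smul' c a := by
    apply Subtype.ext; funext v
    show (if v ∈ S then c • a else 0) = c • (if v ∈ S then a else 0)
    split_ifs <;> simp

open Classical in
theorem aeval_indic [HasPrincipalDivisors K F] (S : Set (Place K F)) (a : F) (v : Place K F) :
    aeval v (indic S a) = if v ∈ S then a else 0 := rfl

/-- the adele concentrated at `v` with component `a` -/
noncomputable def asingle [HasPrincipalDivisors K F] (v : Place K F) : F →ₗ[F] Adele K F :=
  indic {v}

theorem aeval_asingle_self [HasPrincipalDivisors K F] (v : Place K F) (a : F) :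
    aeval v (asingle v a) = a := by
  rw [asingle, aeval_indic]; simp

theorem aeval_asingle_of_ne [HasPrincipalDivisors K F] {v w : Place K F} (h : w ≠ v) (a : F) :
    aeval w (asingle v a) = 0 := by
  rw [asingle, aeval_indic]; simp [h]

section Of

variable [HasPrincipalDivisors K F]

omit [HasPrincipalDivisors K F] in
theorem repartitionsOf_sup (D D' : Divisor K F) :
    repartitionsOf D ⊔ repartitionsOf D' = repartitionsOf (D ⊔ D') := by
  classical
  apply le_antisymm
  · exact sup_le (repartitionsOf_mono le_sup_left) (repartitionsOf_mono le_sup_right)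
  · intro α hα
    have h1 : ∀ v : Place K F, v.adicValuation
        (if D' v ≤ D v then (α : Place K F → F) v else 0) ≤ exp (D v) := by
      intro v
      split_ifs with hv
      · have := hα v
        rwa [Finsupp.sup_apply, sup_eq_left.mpr hv] at this
      · simp
    have h2 : ∀ v : Place K F, v.adicValuation
        (if D' v ≤ D v then 0 else (α : Place K F → F) v) ≤ exp (D' v) := by
      intro v
      split_ifs with hv
      · simp
      · have := hα v
        rwa [Finsupp.sup_apply, sup_eq_right.mpr (not_le.mp hv).le] at this
    let α₁ : Adele K F := ⟨_, mem_repartitions_of_forall_le_exp D _ h1⟩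
    let α₂ : Adele K F := ⟨_, mem_repartitions_of_forall_le_exp D' _ h2⟩
    have hsum : α = α₁ + α₂ := by
      apply Subtype.ext; funext v
      show (α : Place K F → F) v = (if D' v ≤ D v then (α : Place K F → F) v else 0) +
        (if D' v ≤ D v then 0 else (α : Place K F → F) v)
      split_ifs <;> simp
    rw [hsum]
    exact Submodule.add_mem_sup h1 h2

omit [HasPrincipalDivisors K F] in
theorem mul_mem_repartitionsOf {D D' : Divisor K F} {α β : Adele K F}
    (hα : α ∈ repartitionsOf D) (hβ : β ∈ repartitionsOf D') :
    α * β ∈ repartitionsOf (D + D') := fun v =>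
  mul_mem_ball (hα v) (hβ v)

theorem smul_mem_repartitionsOf_iff {f : F} (hf : f ≠ 0) {D : Divisor K F} {α : Adele K F} :
    f • α ∈ repartitionsOf D ↔ α ∈ repartitionsOf (D + divOf K f) := by
  apply forall_congr'
  intro v
  show v.adicValuation (f * (α : Place K F → F) v) ≤ exp (D v) ↔
    v.adicValuation ((α : Place K F → F) v) ≤ exp ((D + divOf K f : Divisor K F) v)
  rw [map_mul, v.adicValuation_eq_exp_neg_ord hf, Finsupp.add_apply, divOf_apply, exp_add,
    exp_neg, mul_comm, ← div_eq_mul_inv, div_le_iff₀ exp_pos]

omit [HasPrincipalDivisors K F] in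
theorem algebraMap_mem_repartitionsOf_iff {f : F} {D : Divisor K F} :
    algebraMap F (Adele K F) f ∈ repartitionsOf D ↔ f ∈ riemannRochSpace D := Iff.rfl

omit [HasPrincipalDivisors K F] in
theorem algebraMap_mem_principalRepartitions (f : F) :
    algebraMap F (Adele K F) f ∈ principalRepartitions K F :=
  mem_principalRepartitions_iff.mpr ⟨f, rfl⟩

omit [HasPrincipalDivisors K F] in
theorem mem_principalRepartitions_iff' {α : Adele K F} :
    α ∈ principalRepartitions K F ↔ ∃ f : F, algebraMap F (Adele K F) f = α := by
  rw [mem_principalRepartitions_iff]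
  constructor
  · rintro ⟨f, hf⟩
    exact ⟨f, Subtype.ext hf.symm⟩
  · rintro ⟨f, rfl⟩
    exact ⟨f, rfl⟩

end Of

section LC

variable [IsFF1 K F]

/-- `A(D+v)/A(D)` is one-dimensional: the leading coefficient at `v`. -/
noncomputable def lcA (D : Divisor K F) (v : Place K F) :
    repartitionsOf (D + Finsupp.single v 1) →ₗ[K] K where
  toFun α := lc v (D v + 1) ⟨aeval v (α : Adele K F), by
    have := α.2 v
    rw [Finsupp.add_apply, Finsupp.single_eq_same] at this
    exact this⟩
  map_add' α β := by
    rw [← map_add]; rfl
  map_smul' c α := by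
    rw [RingHom.id_apply, ← map_smul]; rfl

theorem lcA_surjective (D : Divisor K F) (v : Place K F) : Function.Surjective (lcA D v) := by
  intro c
  obtain ⟨x, hx⟩ := lc_surjective v (D v + 1) c
  have hmem : asingle v (x : F) ∈ repartitionsOf (D + Finsupp.single v 1) := by
    intro w
    by_cases hw : w = v
    · subst hw
      have h1 : ((asingle w (x : F) : Adele K F) : Place K F → F) w = x :=
        aeval_asingle_self w _
      rw [h1, Finsupp.add_apply, Finsupp.single_eq_same]
      exact x.2
    · have h1 : ((asingle v (x : F) : Adele K F) : Place K F → F) w = 0 :=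
        aeval_asingle_of_ne hw _
      rw [h1]; simp
  refine ⟨⟨_, hmem⟩, ?_⟩
  rw [← hx]
  show lc v (D v + 1) ⟨aeval v (asingle v (x : F)), _⟩ = _
  congr 1
  exact Subtype.ext (aeval_asingle_self v _)

theorem lcA_eq_zero_iff (D : Divisor K F) (v : Place K F)
    (α : repartitionsOf (D + Finsupp.single v 1)) :
    lcA D v α = 0 ↔ (α : Adele K F) ∈ repartitionsOf D := by
  show lc v (D v + 1) ⟨aeval v (α : Adele K F), _⟩ = 0 ↔ _
  rw [lc_eq_zero_iff, add_sub_cancel_right]
  constructor
  · intro h w
    by_cases hw : w = v
    · subst hw; exact h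
    · have := α.2 w
      rwa [S27.Core.add_single_apply_of_ne D hw] at this
  · intro h
    exact h v

end LC

end Fermat.Agent.RR
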