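import Mathlib

/-!
# RR library, WP R4a: traces of finite potent endomorphisms (Tate, "Residues of differentials
on curves", §1) and the ideals `E₁, E₂, E₀` attached to a subspace `A ⊆ V`.
-/

set_option autoImplicit false

open LinearMap Module

namespace Fermat.Agent.RR

variable {k : Type*} [Field k] {V : Type*} [AddCommGroup V] [Module k V]
  {V' : Type*} [AddCommGroup V'] [Module k V']

/-- one step: if `θ W' ⊆ W ⊆ W'` the traces on `W` and `W'` agree -/
theorem trace_restrict_eq_of_map_le (θ : End k V) (W W' : Submodule k V) [FiniteDimensional k W]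
    [FiniteDimensional k W'] (hle : W ≤ W') (h : ∀ x ∈ W', θ x ∈ W) :
    LinearMap.trace k W' (θ.restrict (fun x hx => hle (h x hx))) =
      LinearMap.trace k W (θ.restrict (fun x hx => h x (hle hx))) := by
  have := LinearMap.trace_comp_comm' (R := k) (Submodule.inclusion hle) (θ.restrict h)
  exact this.symm

theorem trace_restrict_eq_of_pow (θ : End k V) (W : Submodule k V) [FiniteDimensional k W]
    (hW : ∀ x ∈ W, θ x ∈ W) (n : ℕ) : ∀ (W' : Submodule k V) [FiniteDimensional k W']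
    (hW' : ∀ x ∈ W', θ x ∈ W') (_ : W ≤ W') (_ : ∀ x ∈ W', (θ ^ n) x ∈ W),
    LinearMap.trace k W' (θ.restrict hW') = LinearMap.trace k W (θ.restrict hW) := by
  induction n with
  | zero =>
    intro W' _ hW' hle h
    obtain rfl : W' = W := le_antisymm (fun x hx => by simpa using h x hx) hle
    rfl
  | succ n ih =>
    intro W' _ hW' hle h
    have hst : ∀ x ∈ W ⊔ W'.map θ, θ x ∈ W ⊔ W'.map θ := by
      intro x hx
      obtain ⟨a, ha, b, hb, rfl⟩ := Submodule.mem_sup.mp hx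
      obtain ⟨c, hc, rfl⟩ := hb
      rw [map_add]
      exact Submodule.add_mem_sup (hW a ha) ⟨θ c, hW' c hc, rfl⟩
    have hle2 : W ⊔ W'.map θ ≤ W' := by
      refine sup_le hle ?_
      rintro _ ⟨c, hc, rfl⟩
      exact hW' c hc
    have hpowW : ∀ (m : ℕ), ∀ x ∈ W, (θ ^ m) x ∈ W := by
      intro m
      induction m with
      | zero => intro x hx; simpa using hx
      | succ m ihm =>
        intro x hx
        rw [pow_succ', Module.End.mul_apply]
        exact hW _ (ihm x hx)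
    have h1 := ih (W ⊔ W'.map θ) hst le_sup_left (by
      intro x hx
      obtain ⟨a, ha, b, hb, rfl⟩ := Submodule.mem_sup.mp hx
      obtain ⟨c, hc, rfl⟩ := hb
      rw [map_add]
      refine W.add_mem (hpowW n a ha) ?_
      have := h c hc
      rwa [pow_succ, Module.End.mul_apply] at this)
    rw [← h1]
    exact trace_restrict_eq_of_map_le θ (W ⊔ W'.map θ) W' hle2
      (fun x hx => Submodule.mem_sup_right ⟨x, hx, rfl⟩)

/-- `θ` is finite potent: some power has finite rank. -/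
def IsFinitePotent (θ : End k V) : Prop := ∃ n : ℕ, FiniteDimensional k (range (θ ^ n))

theorem mem_range_pow_of_mem (θ : End k V) (n : ℕ) : ∀ x ∈ range (θ ^ n), θ x ∈ range (θ ^ n) := by
  rintro _ ⟨y, rfl⟩
  exact ⟨θ y, by rw [← Module.End.mul_apply, ← Module.End.mul_apply, ← pow_succ, ← pow_succ']⟩

open Classical in
/-- Tate's trace of a finite potent endomorphism (`0` if `θ` is not finite potent). -/
noncomputable def ftr (θ : End k V) : k :=
  if h : IsFinitePotent θ then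
    LinearMap.trace k (range (θ ^ h.choose)) (θ.restrict (mem_range_pow_of_mem θ h.choose))
  else 0

/-- The basic computation rule: the trace may be computed on any finite dimensional stable
subspace containing the image of a power of `θ`. -/
theorem ftr_eq_trace_restrict (θ : End k V) (W : Submodule k V) [FiniteDimensional k W]
    (hW : ∀ x ∈ W, θ x ∈ W) (n : ℕ) (hn : ∀ x, (θ ^ n) x ∈ W) :
    ftr θ = LinearMap.trace k W (θ.restrict hW) := by
  have hfp : IsFinitePotent θ :=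
    ⟨n, Submodule.finiteDimensional_of_le (by rintro _ ⟨y, rfl⟩; exact hn y : range (θ ^ n) ≤ W)⟩
  unfold ftr
  rw [dif_pos hfp]
  set m := hfp.choose with hm
  have h0 : FiniteDimensional k (range (θ ^ m)) := hfp.choose_spec
  have hle0 : range (θ ^ (m + n)) ≤ range (θ ^ m) := by
    rintro _ ⟨y, rfl⟩
    exact ⟨(θ ^ n) y, by rw [pow_add, Module.End.mul_apply]⟩
  have hle1 : range (θ ^ (m + n)) ≤ W := by
    rintro _ ⟨y, rfl⟩
    rw [add_comm, pow_add, Module.End.mul_apply]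
    exact hn _
  have : FiniteDimensional k (range (θ ^ (m + n))) := Submodule.finiteDimensional_of_le hle0
  rw [trace_restrict_eq_of_pow θ (range (θ ^ (m + n))) (mem_range_pow_of_mem θ (m + n)) n
      (range (θ ^ m)) (mem_range_pow_of_mem θ m) hle0 (by
        rintro _ ⟨y, rfl⟩
        exact ⟨y, by rw [add_comm, pow_add, Module.End.mul_apply]⟩),
    trace_restrict_eq_of_pow θ (range (θ ^ (m + n))) (mem_range_pow_of_mem θ (m + n)) (m + n)
      W hW hle1 (fun x _ => ⟨x, rfl⟩)]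

theorem ftr_eq_trace [FiniteDimensional k V] (θ : End k V) : ftr θ = LinearMap.trace k V θ := by
  rw [ftr_eq_trace_restrict θ ⊤ (fun _ _ => Submodule.mem_top) 0 (fun _ => Submodule.mem_top)]
  have := LinearMap.trace_comp_comm' (R := k) (⊤ : Submodule k V).subtype
    (θ.codRestrict ⊤ (fun _ => Submodule.mem_top))
  exact this

theorem ftr_eq_zero_of_pow_eq_zero (θ : End k V) (n : ℕ) (h : θ ^ n = 0) : ftr θ = 0 := by
  rw [ftr_eq_trace_restrict θ ⊥ (by intro x hx; rw [Submodule.mem_bot] at hx; simp [hx]) n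
    (by intro x; rw [h]; simp)]
  have : (θ.restrict (p := (⊥ : Submodule k V)) (q := ⊥)
      (by intro x hx; rw [Submodule.mem_bot] at hx; simp [hx])) = 0 := by
    ext x
  rw [this, map_zero]

theorem ftr_of_not_isFinitePotent {θ : End k V} (h : ¬ IsFinitePotent θ) : ftr θ = 0 := by
  unfold ftr
  rw [dif_neg h]

theorem ftr_smul (c : k) (θ : End k V) : ftr (c • θ) = c * ftr θ := by
  rcases eq_or_ne c 0 with rfl | hc
  · rw [zero_smul, zero_mul]
    exact ftr_eq_zero_of_pow_eq_zero 0 1 (by simp)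
  by_cases h : IsFinitePotent θ
  · obtain ⟨n, hn⟩ := h
    rw [ftr_eq_trace_restrict θ (range (θ ^ n)) (mem_range_pow_of_mem θ n) n (fun x => ⟨x, rfl⟩),
      ftr_eq_trace_restrict (c • θ) (range (θ ^ n))
        (fun x hx => Submodule.smul_mem _ c (mem_range_pow_of_mem θ n x hx)) n
        (fun x => by
          rw [smul_pow, LinearMap.smul_apply]
          exact Submodule.smul_mem _ _ ⟨x, rfl⟩), ← smul_eq_mul, ← map_smul]
    rfl
  · rw [ftr_of_not_isFinitePotent h, mul_zero]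
    apply ftr_of_not_isFinitePotent
    rintro ⟨n, hn⟩
    apply h
    refine ⟨n, ?_⟩
    rwa [smul_pow, LinearMap.range_smul _ _ (pow_ne_zero n hc)] at hn

theorem ftr_neg (θ : End k V) : ftr (-θ) = - ftr θ := by
  have := ftr_smul (-1 : k) θ
  simpa using this

/-- (T5) -/
theorem ftr_comp_comm (φ : V' →ₗ[k] V) (ψ : V →ₗ[k] V') (h : IsFinitePotent (φ ∘ₗ ψ)) :
    ftr (φ ∘ₗ ψ) = ftr (ψ ∘ₗ φ) := by
  obtain ⟨n, hn⟩ := h
  set θ : End k V := φ ∘ₗ ψ with hθ
  set θ' : End k V' := ψ ∘ₗ φ with hθ'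
  have hpow : ∀ (m : ℕ) (y : V'), (θ' ^ (m + 1)) y = ψ ((θ ^ m) (φ y)) := by
    intro m
    induction m with
    | zero => intro y; simp [hθ']
    | succ m ih =>
      intro y
      rw [pow_succ, Module.End.mul_apply, ih, pow_succ, Module.End.mul_apply]
      rfl
  have hst' : ∀ x ∈ (range (θ ^ n)).map ψ, θ' x ∈ (range (θ ^ n)).map ψ := by
    rintro _ ⟨w, hw, rfl⟩
    exact ⟨θ w, mem_range_pow_of_mem θ n w hw, rfl⟩
  rw [ftr_eq_trace_restrict θ (range (θ ^ n)) (mem_range_pow_of_mem θ n) n (fun x => ⟨x, rfl⟩),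
    ftr_eq_trace_restrict θ' ((range (θ ^ n)).map ψ) hst' (n + 1)
      (fun y => by rw [hpow]; exact ⟨_, ⟨_, rfl⟩, rfl⟩)]
  have hb : ∀ x ∈ (range (θ ^ n)).map ψ, φ x ∈ range (θ ^ n) := by
    rintro _ ⟨w, hw, rfl⟩
    exact mem_range_pow_of_mem θ n w hw
  have ha : ∀ x ∈ range (θ ^ n), ψ x ∈ (range (θ ^ n)).map ψ := fun x hx => ⟨x, hx, rfl⟩
  exact LinearMap.trace_comp_comm' (R := k) (ψ.restrict ha) (φ.restrict hb)

/-- additivity when all products of two of the operators have finite rank -/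
theorem ftr_add_of_finite (θ₁ θ₂ : End k V)
    (h11 : FiniteDimensional k (range (θ₁ * θ₁))) (h12 : FiniteDimensional k (range (θ₁ * θ₂)))
    (h21 : FiniteDimensional k (range (θ₂ * θ₁))) (h22 : FiniteDimensional k (range (θ₂ * θ₂))) :
    ftr (θ₁ + θ₂) = ftr θ₁ + ftr θ₂ := by
  set W : Submodule k V :=
    range (θ₁ * θ₁) ⊔ range (θ₁ * θ₂) ⊔ (range (θ₂ * θ₁) ⊔ range (θ₂ * θ₂)) with hWdef
  have m11 : ∀ x, θ₁ (θ₁ x) ∈ W := fun x =>
    Submodule.mem_sup_left (Submodule.mem_sup_left ⟨x, rfl⟩)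
  have m12 : ∀ x, θ₁ (θ₂ x) ∈ W := fun x =>
    Submodule.mem_sup_left (Submodule.mem_sup_right ⟨x, rfl⟩)
  have m21 : ∀ x, θ₂ (θ₁ x) ∈ W := fun x =>
    Submodule.mem_sup_right (Submodule.mem_sup_left ⟨x, rfl⟩)
  have m22 : ∀ x, θ₂ (θ₂ x) ∈ W := fun x =>
    Submodule.mem_sup_right (Submodule.mem_sup_right ⟨x, rfl⟩)
  have hrep : ∀ x ∈ W, ∃ a b c d, x = θ₁ (θ₁ a) + θ₁ (θ₂ b) + (θ₂ (θ₁ c) + θ₂ (θ₂ d)) := by
    intro x hx
    obtain ⟨y, hy, z, hz, rfl⟩ := Submodule.mem_sup.mp hx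
    obtain ⟨_, ⟨a, rfl⟩, _, ⟨b, rfl⟩, rfl⟩ := Submodule.mem_sup.mp hy
    obtain ⟨_, ⟨c, rfl⟩, _, ⟨d, rfl⟩, rfl⟩ := Submodule.mem_sup.mp hz
    exact ⟨a, b, c, d, rfl⟩
  have hW1 : ∀ x ∈ W, θ₁ x ∈ W := by
    intro x hx
    obtain ⟨a, b, c, d, rfl⟩ := hrep x hx
    simp only [map_add]
    exact W.add_mem (W.add_mem (m11 _) (m11 _)) (W.add_mem (m12 _) (m12 _))
  have hW2 : ∀ x ∈ W, θ₂ x ∈ W := by
    intro x hx
    obtain ⟨a, b, c, d, rfl⟩ := hrep x hx
    simp only [map_add]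
    exact W.add_mem (W.add_mem (m21 _) (m21 _)) (W.add_mem (m22 _) (m22 _))
  have hW12 : ∀ x ∈ W, (θ₁ + θ₂) x ∈ W := fun x hx => W.add_mem (hW1 x hx) (hW2 x hx)
  rw [ftr_eq_trace_restrict θ₁ W hW1 2 (fun x => by rw [pow_two]; exact m11 x),
    ftr_eq_trace_restrict θ₂ W hW2 2 (fun x => by rw [pow_two]; exact m22 x),
    ftr_eq_trace_restrict (θ₁ + θ₂) W hW12 2 (fun x => by
      rw [pow_two, Module.End.mul_apply, LinearMap.add_apply, LinearMap.add_apply, map_add, map_add]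
      exact W.add_mem (W.add_mem (m11 _) (m12 _)) (W.add_mem (m21 _) (m22 _))), ← map_add]
  rfl

/-! ### "not much bigger" -/

/-- `A ≺ B` : `(A + B)/B` is finite dimensional. -/
def Prec (A B : Submodule k V) : Prop :=
  ∃ U : Submodule k V, FiniteDimensional k U ∧ A ≤ B ⊔ U

theorem Prec.of_le {A B : Submodule k V} (h : A ≤ B) : Prec A B :=
  ⟨⊥, inferInstance, by simpa using h⟩

theorem Prec.refl (A : Submodule k V) : Prec A A := Prec.of_le le_rfl

theorem Prec.trans {A B C : Submodule k V} (h₁ : Prec A B) (h₂ : Prec B C) : Prec A C := by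
  obtain ⟨U, hU, hA⟩ := h₁
  obtain ⟨U', hU', hB⟩ := h₂
  refine ⟨U' ⊔ U, inferInstance, hA.trans ?_⟩
  rw [← sup_assoc]
  exact sup_le_sup_right hB U

theorem Prec.mono_left {A A' B : Submodule k V} (h : A' ≤ A) (h₁ : Prec A B) : Prec A' B := by
  obtain ⟨U, hU, hA⟩ := h₁
  exact ⟨U, hU, h.trans hA⟩

theorem Prec.sup {A B C : Submodule k V} (h₁ : Prec A C) (h₂ : Prec B C) : Prec (A ⊔ B) C := by
  obtain ⟨U, hU, hA⟩ := h₁
  obtain ⟨U', hU', hB⟩ := h₂
  refine ⟨U ⊔ U', inferInstance, sup_le (hA.trans ?_) (hB.trans ?_)⟩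
  · exact sup_le_sup_left le_sup_left C
  · exact sup_le_sup_left le_sup_right C

theorem Prec.map {A B : Submodule k V} (h : Prec A B) (φ : V →ₗ[k] V') :
    Prec (A.map φ) (B.map φ) := by
  obtain ⟨U, hU, hA⟩ := h
  refine ⟨U.map φ, inferInstance, ?_⟩
  rw [← Submodule.map_sup]
  exact Submodule.map_mono hA

theorem prec_bot_iff {A : Submodule k V} : Prec A ⊥ ↔ FiniteDimensional k A := by
  constructor
  · rintro ⟨U, hU, hA⟩
    rw [bot_sup_eq] at hA
    exact Submodule.finiteDimensional_of_le hA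
  · intro h
    exact ⟨A, h, le_sup_right⟩

theorem Prec.of_finiteDimensional {A : Submodule k V} [FiniteDimensional k A]
    (B : Submodule k V) : Prec A B :=
  ⟨A, inferInstance, le_sup_right⟩

theorem prec_iff_finiteDimensional_quotient {A B : Submodule k V} (_h : B ≤ A) :
    Prec A B ↔ FiniteDimensional k (A ⧸ B.comap A.subtype) := by
  constructor
  · rintro ⟨U, hU, hA⟩
    have hker : LinearMap.ker (B.mkQ ∘ₗ A.subtype) = B.comap A.subtype := by
      rw [LinearMap.ker_comp, Submodule.ker_mkQ]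
    have hr : range (B.mkQ ∘ₗ A.subtype) ≤ U.map B.mkQ := by
      rintro _ ⟨a, rfl⟩
      obtain ⟨b, hb, u, hu, hbu⟩ := Submodule.mem_sup.mp (hA a.2)
      refine ⟨u, hu, ?_⟩
      show B.mkQ u = B.mkQ (a : V)
      rw [← hbu, map_add, show B.mkQ b = 0 from (Submodule.Quotient.mk_eq_zero B).mpr hb, zero_add]
    have : FiniteDimensional k (range (B.mkQ ∘ₗ A.subtype)) :=
      Submodule.finiteDimensional_of_le hr
    rw [← hker]
    exact LinearEquiv.finiteDimensional (B.mkQ ∘ₗ A.subtype).quotKerEquivRange.symm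
  · intro hfin
    obtain ⟨C, hC⟩ := Submodule.exists_isCompl (B.comap A.subtype)
    have : FiniteDimensional k C :=
      LinearEquiv.finiteDimensional (Submodule.quotientEquivOfIsCompl _ C hC)
    refine ⟨C.map A.subtype, inferInstance, ?_⟩
    intro a ha
    have htop : (⟨a, ha⟩ : A) ∈ B.comap A.subtype ⊔ C := by rw [hC.sup_eq_top]; trivial
    obtain ⟨b, hb, c, hc, hbc⟩ := Submodule.mem_sup.mp htop
    have : a = (b : V) + (c : V) := by
      have := congrArg Subtype.val hbc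
      simpa using this.symm
    rw [this]
    exact Submodule.add_mem_sup hb ⟨c, hc, rfl⟩

theorem prec_top_iff {B : Submodule k V} : Prec ⊤ B ↔ FiniteDimensional k (V ⧸ B) := by
  constructor
  · rintro ⟨U, hU, hA⟩
    have hs : Function.Surjective (B.mkQ ∘ₗ U.subtype) := by
      intro y
      obtain ⟨x, rfl⟩ := B.mkQ_surjective y
      obtain ⟨b, hb, u, hu, hbu⟩ := Submodule.mem_sup.mp (hA (Submodule.mem_top (x := x)))
      refine ⟨⟨u, hu⟩, ?_⟩
      show B.mkQ u = B.mkQ x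
      rw [← hbu, map_add, show B.mkQ b = 0 from (Submodule.Quotient.mk_eq_zero B).mpr hb, zero_add]
    exact Module.Finite.of_surjective _ hs
  · intro hfin
    obtain ⟨C, hC⟩ := Submodule.exists_isCompl B
    have : FiniteDimensional k C :=
      LinearEquiv.finiteDimensional (Submodule.quotientEquivOfIsCompl _ C hC)
    exact ⟨C, inferInstance, by rw [hC.sup_eq_top]⟩

/-! ### The ideals attached to a subspace -/

/-- `E = {θ | θ A ≺ A}` -/
def E (A : Submodule k V) : Subalgebra k (End k V) where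
  carrier := {θ | Prec (A.map θ) A}
  mul_mem' := by
    intro θ φ (hθ : Prec (A.map θ) A) (hφ : Prec (A.map φ) A)
    show Prec (A.map (θ * φ)) A
    rw [Module.End.mul_eq_comp, Submodule.map_comp]
    exact (hφ.map θ).trans hθ
  add_mem' := by
    intro θ φ (hθ : Prec (A.map θ) A) (hφ : Prec (A.map φ) A)
    show Prec (A.map (θ + φ)) A
    refine (hθ.sup hφ).mono_left ?_
    rintro _ ⟨a, ha, rfl⟩
    exact Submodule.add_mem_sup ⟨a, ha, rfl⟩ ⟨a, ha, rfl⟩
  algebraMap_mem' := by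
    intro c
    show Prec (A.map (algebraMap k (End k V) c)) A
    apply Prec.of_le
    rintro _ ⟨a, ha, rfl⟩
    rw [Module.algebraMap_end_apply]
    exact A.smul_mem c ha

/-- `E₁ = {θ | θ V ≺ A}` -/
def E1 (A : Submodule k V) : Submodule k (End k V) where
  carrier := {θ | Prec (range θ) A}
  add_mem' := by
    intro θ φ (hθ : Prec (range θ) A) (hφ : Prec (range φ) A)
    show Prec (range (θ + φ)) A
    refine (hθ.sup hφ).mono_left ?_
    rintro _ ⟨a, rfl⟩
    exact Submodule.add_mem_sup ⟨a, rfl⟩ ⟨a, rfl⟩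
  zero_mem' := by
    show Prec (range (0 : End k V)) A
    apply Prec.of_le
    rw [LinearMap.range_zero]
    exact bot_le
  smul_mem' := by
    intro c θ (hθ : Prec (range θ) A)
    show Prec (range (c • θ)) A
    refine hθ.mono_left ?_
    rintro _ ⟨a, rfl⟩
    exact ⟨c • a, by simp⟩

/-- `E₂ = {θ | θ A ≺ 0}` -/
def E2 (A : Submodule k V) : Submodule k (End k V) where
  carrier := {θ | FiniteDimensional k (A.map θ)}
  add_mem' := by
    intro θ φ (hθ : FiniteDimensional k (A.map θ)) (hφ : FiniteDimensional k (A.map φ))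
    show FiniteDimensional k (A.map (θ + φ))
    refine Submodule.finiteDimensional_of_le (S₂ := A.map θ ⊔ A.map φ) ?_
    rintro _ ⟨a, ha, rfl⟩
    exact Submodule.add_mem_sup ⟨a, ha, rfl⟩ ⟨a, ha, rfl⟩
  zero_mem' := by
    show FiniteDimensional k (A.map (0 : End k V))
    refine Submodule.finiteDimensional_of_le (S₂ := ⊥) ?_
    rintro _ ⟨a, ha, rfl⟩
    simp
  smul_mem' := by
    intro c θ (hθ : FiniteDimensional k (A.map θ))
    show FiniteDimensional k (A.map (c • θ))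
    refine Submodule.finiteDimensional_of_le (S₂ := A.map θ) ?_
    rintro _ ⟨a, ha, rfl⟩
    exact ⟨c • a, A.smul_mem c ha, by simp⟩

/-- `E₀ = E₁ ∩ E₂` -/
def E0 (A : Submodule k V) : Submodule k (End k V) := E1 A ⊓ E2 A

theorem mem_E {A : Submodule k V} {θ : End k V} : θ ∈ E A ↔ Prec (A.map θ) A := Iff.rfl
theorem mem_E1 {A : Submodule k V} {θ : End k V} : θ ∈ E1 A ↔ Prec (range θ) A := Iff.rfl
theorem mem_E2 {A : Submodule k V} {θ : End k V} :
    θ ∈ E2 A ↔ FiniteDimensional k (A.map θ) := Iff.rfl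
theorem mem_E0 {A : Submodule k V} {θ : End k V} : θ ∈ E0 A ↔ θ ∈ E1 A ∧ θ ∈ E2 A := Iff.rfl

theorem E1_le_E (A : Submodule k V) {θ : End k V} (h : θ ∈ E1 A) : θ ∈ E A :=
  Prec.mono_left (LinearMap.map_le_range) (mem_E1.mp h)

theorem E2_le_E (A : Submodule k V) {θ : End k V} (h : θ ∈ E2 A) : θ ∈ E A := by
  have : FiniteDimensional k (A.map θ) := h
  exact Prec.of_finiteDimensional A

theorem mul_mem_E1_left {A : Submodule k V} {θ φ : End k V} (hθ : θ ∈ E1 A) (hφ : φ ∈ E A) :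
    φ * θ ∈ E1 A := by
  rw [mem_E1, Module.End.mul_eq_comp, LinearMap.range_comp]
  exact ((mem_E1.mp hθ).map φ).trans hφ

theorem mul_mem_E1_right {A : Submodule k V} {θ : End k V} (hθ : θ ∈ E1 A) (φ : End k V) :
    θ * φ ∈ E1 A := by
  rw [mem_E1, Module.End.mul_eq_comp]
  exact (mem_E1.mp hθ).mono_left (LinearMap.range_comp_le_range φ θ)

theorem mul_mem_E2_left {A : Submodule k V} {θ : End k V} (hθ : θ ∈ E2 A) (φ : End k V) :
    φ * θ ∈ E2 A := by
  have : FiniteDimensional k (A.map θ) := hθ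
  rw [mem_E2, Module.End.mul_eq_comp, Submodule.map_comp]
  infer_instance

theorem mul_mem_E2_right {A : Submodule k V} {θ φ : End k V} (hθ : θ ∈ E2 A) (hφ : φ ∈ E A) :
    θ * φ ∈ E2 A := by
  have h1 : FiniteDimensional k (A.map θ) := hθ
  rw [mem_E2, Module.End.mul_eq_comp, Submodule.map_comp, ← prec_bot_iff]
  exact ((mem_E.mp hφ).map θ).trans (prec_bot_iff.mpr h1)

theorem mul_mem_E0_left {A : Submodule k V} {θ φ : End k V} (hθ : θ ∈ E0 A) (hφ : φ ∈ E A) :
    φ * θ ∈ E0 A :=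
  ⟨mul_mem_E1_left hθ.1 hφ, mul_mem_E2_left hθ.2 φ⟩

theorem mul_mem_E0_right {A : Submodule k V} {θ φ : End k V} (hθ : θ ∈ E0 A) (hφ : φ ∈ E A) :
    θ * φ ∈ E0 A :=
  ⟨mul_mem_E1_right hθ.1 φ, mul_mem_E2_right hθ.2 hφ⟩

/-- the product of an element of `E₂` with an element of `E₁` has finite rank -/
theorem finiteDimensional_range_mul {A : Submodule k V} {θ₁ θ₂ : End k V} (h₁ : θ₁ ∈ E2 A)
    (h₂ : θ₂ ∈ E1 A) : FiniteDimensional k (range (θ₁ * θ₂)) := by
  have h1 : FiniteDimensional k (A.map θ₁) := h₁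
  rw [Module.End.mul_eq_comp, LinearMap.range_comp, ← prec_bot_iff]
  exact ((mem_E1.mp h₂).map θ₁).trans (prec_bot_iff.mpr h1)

theorem isFinitePotent_of_mem_E0 {A : Submodule k V} {θ : End k V} (h : θ ∈ E0 A) :
    IsFinitePotent θ :=
  ⟨2, by rw [pow_two]; exact finiteDimensional_range_mul h.2 h.1⟩

/-- (T4) for `E₀` -/
theorem ftr_add {A : Submodule k V} {θ₁ θ₂ : End k V} (h₁ : θ₁ ∈ E0 A) (h₂ : θ₂ ∈ E0 A) :
    ftr (θ₁ + θ₂) = ftr θ₁ + ftr θ₂ :=
  ftr_add_of_finite θ₁ θ₂ (finiteDimensional_range_mul h₁.2 h₁.1)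
    (finiteDimensional_range_mul h₁.2 h₂.1) (finiteDimensional_range_mul h₂.2 h₁.1)
    (finiteDimensional_range_mul h₂.2 h₂.1)

theorem ftr_sub {A : Submodule k V} {θ₁ θ₂ : End k V} (h₁ : θ₁ ∈ E0 A) (h₂ : θ₂ ∈ E0 A) :
    ftr (θ₁ - θ₂) = ftr θ₁ - ftr θ₂ := by
  rw [sub_eq_add_neg, ftr_add h₁ ((E0 A).neg_mem h₂), ftr_neg, sub_eq_add_neg]

/-- the trace as a linear form on `E₀` -/
noncomputable def ftrL (A : Submodule k V) : E0 A →ₗ[k] k where
  toFun θ := ftr (θ : End k V)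
  map_add' θ₁ θ₂ := ftr_add θ₁.2 θ₂.2
  map_smul' c θ := by
    show ftr (c • (θ : End k V)) = c • ftr (θ : End k V)
    rw [ftr_smul, smul_eq_mul]

/-- cyclicity inside `E` -/
theorem ftr_mul_comm {A : Submodule k V} {θ φ : End k V} (hθ : θ ∈ E0 A) (hφ : φ ∈ E A) :
    ftr (θ * φ) = ftr (φ * θ) :=
  ftr_comp_comm θ φ (isFinitePotent_of_mem_E0 (mul_mem_E0_right hθ hφ))

/-- `φ ∈ E₁`, `ψ ∈ E₂` : the commutator has trace zero -/
theorem ftr_mul_comm' {A : Submodule k V} {φ ψ : End k V} (hφ : φ ∈ E1 A) (hψ : ψ ∈ E2 A) :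
    ftr (φ * ψ) = ftr (ψ * φ) :=
  ftr_comp_comm φ ψ (isFinitePotent_of_mem_E0
    ⟨mul_mem_E1_right hφ ψ, mul_mem_E2_left hψ φ⟩)

end Fermat.Agent.RR
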