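import Fermat.Agent.RR.RR1

/-!
# RR library, WP R3: Weil differentials and the duality theorem (Stichtenoth 1.5)
-/

set_option autoImplicit false

open AlgebraicCurve WithZero

namespace Fermat.Agent.RR

variable {K F : Type*} [Field K] [Field F] [Algebra K F]

/-- multiplication by `x : F` on the adeles, as a `K`-linear map -/
noncomputable def mulF (x : F) : Adele K F →ₗ[K] Adele K F :=
  Algebra.lsmul K K (Adele K F) x

theorem mulF_apply (x : F) (α : Adele K F) : mulF x α = x • α := rfl

/-- the action of `F` on linear forms on the adeles: `(x λ)(α) = λ(x α)` -/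
noncomputable def smulW (x : F) (lam : Module.Dual K (Adele K F)) : Module.Dual K (Adele K F) :=
  lam ∘ₗ mulF x

theorem smulW_apply (x : F) (lam : Module.Dual K (Adele K F)) (α : Adele K F) :
    smulW x lam α = lam (x • α) := rfl

/-- Weil differentials vanishing on `A(D) + F`. -/
def weilSpace (D : Divisor K F) : Submodule K (Module.Dual K (Adele K F)) :=
  (repartitionsOf D ⊔ principalRepartitions K F).dualAnnihilator

theorem mem_weilSpace_iff {D : Divisor K F} {lam : Module.Dual K (Adele K F)} :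
    lam ∈ weilSpace D ↔
      (∀ α ∈ repartitionsOf D, lam α = 0) ∧ ∀ f : F, lam (algebraMap F (Adele K F) f) = 0 := by
  unfold weilSpace
  rw [Submodule.dualAnnihilator_sup_eq, Submodule.mem_inf, Submodule.mem_dualAnnihilator,
    Submodule.mem_dualAnnihilator]
  refine and_congr Iff.rfl ?_
  constructor
  · intro h f
    exact h _ (algebraMap_mem_principalRepartitions f)
  · intro h α hα
    obtain ⟨f, rfl⟩ := mem_principalRepartitions_iff'.mp hα
    exact h f

theorem weilSpace_antitone {D D' : Divisor K F} (h : D ≤ D') : weilSpace D' ≤ weilSpace D :=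
  Submodule.dualAnnihilator_anti (sup_le_sup_right (repartitionsOf_mono h) _)

/-- `x ↦ x λ` as a `K`-linear map. -/
noncomputable def smulWL (lam : Module.Dual K (Adele K F)) :
    F →ₗ[K] Module.Dual K (Adele K F) where
  toFun x := smulW x lam
  map_add' x y := by
    ext α
    simp only [smulW_apply, LinearMap.add_apply, add_smul, map_add]
  map_smul' c x := by
    ext α
    simp only [smulW_apply, LinearMap.smul_apply, RingHom.id_apply, smul_assoc, map_smul]

theorem smulWL_apply (lam : Module.Dual K (Adele K F)) (x : F) : smulWL lam x = smulW x lam := rfl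

theorem smulW_smulW (x y : F) (lam : Module.Dual K (Adele K F)) :
    smulW x (smulW y lam) = smulW (y * x) lam := by
  ext α
  simp only [smulW_apply, mul_smul]

theorem smulW_one (lam : Module.Dual K (Adele K F)) : smulW 1 lam = lam := by
  ext α
  simp only [smulW_apply, one_smul]

theorem smulW_zero_left (lam : Module.Dual K (Adele K F)) : smulW 0 lam = 0 := by
  ext α
  simp only [smulW_apply, zero_smul, map_zero, LinearMap.zero_apply]

theorem smulWL_injective {lam : Module.Dual K (Adele K F)} (h : lam ≠ 0) :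
    Function.Injective (smulWL lam) := by
  rw [← LinearMap.ker_eq_bot, LinearMap.ker_eq_bot']
  intro x hx
  by_contra hx0
  apply h
  have h1 : smulW x⁻¹ (smulW x lam) = lam := by
    rw [smulW_smulW, mul_inv_cancel₀ hx0, smulW_one]
  rw [← h1]
  have h2 : smulW x lam = 0 := hx
  rw [h2]
  ext α
  simp only [smulW_apply, LinearMap.zero_apply]

/-- `lam` is a Weil differential with divisor exactly `W`. -/
structure IsCanonical (lam : Module.Dual K (Adele K F)) (W : Divisor K F) : Prop where
  principal : ∀ f : F, lam (algebraMap F (Adele K F) f) = 0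
  vanish : ∀ α ∈ repartitionsOf W, lam α = 0
  maximal : ∀ v : Place K F, ∃ α ∈ repartitionsOf (W + Finsupp.single v 1), lam α ≠ 0

variable [IsFF1 K F]

omit [IsFF1 K F] in
theorem finrank_weilSpace (D : Divisor K F) : Module.finrank K (weilSpace D) = idx D := by
  unfold weilSpace idx
  rw [← (Submodule.dualQuotEquivDualAnnihilator
    (repartitionsOf D ⊔ principalRepartitions K F)).finrank_eq]
  exact Subspace.dual_finrank_eq

instance finiteDimensional_weilSpace (D : Divisor K F) : FiniteDimensional K (weilSpace D) :=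
  LinearEquiv.finiteDimensional (Submodule.dualQuotEquivDualAnnihilator
    (repartitionsOf D ⊔ principalRepartitions K F))

theorem smulW_mem_weilSpace {x : F} (hx : x ≠ 0) {D : Divisor K F}
    {lam : Module.Dual K (Adele K F)} (h : lam ∈ weilSpace D) :
    smulW x lam ∈ weilSpace (D + divOf K x) := by
  rw [mem_weilSpace_iff] at h ⊢
  refine ⟨fun α hα => ?_, fun f => ?_⟩
  · rw [smulW_apply]
    exact h.1 _ ((smul_mem_repartitionsOf_iff hx).mpr hα)
  · rw [smulW_apply]
    have : x • algebraMap F (Adele K F) f = algebraMap F (Adele K F) (x * f) := by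
      rw [map_mul, Algebra.smul_def]
    rw [this]
    exact h.2 _

/-- `x λ ∈ Ω(D)` for `λ ∈ Ω(W)` and `x ∈ L(W - D)`. -/
theorem smulW_mem_weilSpace_of_mem {x : F} {W D : Divisor K F}
    {lam : Module.Dual K (Adele K F)} (h : lam ∈ weilSpace W)
    (hx : x ∈ riemannRochSpace (W - D)) : smulW x lam ∈ weilSpace D := by
  rcases eq_or_ne x 0 with rfl | hx0
  · rw [smulW_zero_left]; exact Submodule.zero_mem _
  refine weilSpace_antitone ?_ (smulW_mem_weilSpace hx0 h)
  rw [mem_riemannRochSpace_iff_divOf hx0] at hx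
  have : W + divOf K x - D = divOf K x + (W - D) := by abel
  rw [← sub_nonneg, this]
  exact hx

theorem map_smulWL_le {W D : Divisor K F} {lam : Module.Dual K (Adele K F)}
    (h : lam ∈ weilSpace W) :
    (riemannRochSpace (W - D)).map (smulWL lam) ≤ weilSpace D := by
  rintro _ ⟨x, hx, rfl⟩
  exact smulW_mem_weilSpace_of_mem h hx

omit [IsFF1 K F] in
theorem finrank_map_smulWL {lam : Module.Dual K (Adele K F)} (h : lam ≠ 0) (D : Divisor K F) :
    Module.finrank K ((riemannRochSpace D).map (smulWL lam)) = ell D :=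
  ((Submodule.equivMapOfInjective (smulWL lam) (smulWL_injective h)
    (riemannRochSpace D)).finrank_eq).symm

/-- The space of Weil differentials is one-dimensional over `F` (Stichtenoth 1.5.9). -/
theorem exists_smulW_eq {D₁ D₂ : Divisor K F} {lam₁ lam₂ : Module.Dual K (Adele K F)}
    (h₁ : lam₁ ∈ weilSpace D₁) (h₁0 : lam₁ ≠ 0) (h₂ : lam₂ ∈ weilSpace D₂) :
    ∃ x : F, lam₂ = smulW x lam₁ := by
  rcases eq_or_ne lam₂ 0 with rfl | h₂0
  · exact ⟨0, (smulW_zero_left _).symm⟩
  obtain ⟨v⟩ := IsFF1.nonempty_place (K := K) (F := F)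
  -- a divisor `B` of large degree
  obtain ⟨m, hm⟩ : ∃ m : ℤ, 0 < m ∧
      3 * (genusFF K F : ℤ) - 3 - Divisor.degree D₁ - Divisor.degree D₂ < m :=
    ⟨max 1 (3 * (genusFF K F : ℤ) - 2 - Divisor.degree D₁ - Divisor.degree D₂),
      lt_of_lt_of_le one_pos (le_max_left _ _),
      lt_of_lt_of_le (by linarith) (le_max_right _ _)⟩
  set B : Divisor K F := Finsupp.single v m with hB
  have hBdeg : Divisor.degree B = m := degree_single v m
  set U₁ := (riemannRochSpace (D₁ - (-B))).map (smulWL lam₁) with hU₁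
  set U₂ := (riemannRochSpace (D₂ - (-B))).map (smulWL lam₂) with hU₂
  have hle₁ : U₁ ≤ weilSpace (-B) := map_smulWL_le h₁
  have hle₂ : U₂ ≤ weilSpace (-B) := map_smulWL_le h₂
  have hf₁ : Module.finrank K U₁ = ell (D₁ - (-B)) := finrank_map_smulWL h₁0 _
  have hf₂ : Module.finrank K U₂ = ell (D₂ - (-B)) := finrank_map_smulWL h₂0 _
  have hfin₁ : FiniteDimensional K U₁ := Submodule.finiteDimensional_of_le hle₁
  have hfin₂ : FiniteDimensional K U₂ := Submodule.finiteDimensional_of_le hle₂
  have hsum := Submodule.finrank_sup_add_finrank_inf_eq U₁ U₂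
  have hsup : Module.finrank K (U₁ ⊔ U₂ : Submodule K _) ≤ idx (-B) := by
    rw [← finrank_weilSpace]
    exact Submodule.finrank_mono (sup_le hle₁ hle₂)
  have e1 := riemann_inequality (D₁ - (-B))
  have e2 := riemann_inequality (D₂ - (-B))
  have e3 := rr1 (-B)
  rw [ell_eq_zero (by rw [map_neg, hBdeg]; omega), map_neg, hBdeg] at e3
  rw [map_sub, map_neg, hBdeg] at e1 e2
  have hinf : 0 < Module.finrank K (U₁ ⊓ U₂ : Submodule K _) := by
    by_contra hcon
    have h0 : Module.finrank K (U₁ ⊓ U₂ : Submodule K _) = 0 := by omega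
    rw [h0, hf₁, hf₂] at hsum
    push_cast at e3
    omega
  have hne : U₁ ⊓ U₂ ≠ ⊥ := by
    intro h
    rw [h, finrank_bot] at hinf
    exact lt_irrefl _ hinf
  obtain ⟨μ, hμ, hμ0'⟩ := Submodule.exists_mem_ne_zero_of_ne_bot hne
  obtain ⟨⟨x₁, -, hx₁⟩, ⟨x₂, -, hx₂⟩⟩ := hμ
  rw [smulWL_apply] at hx₁ hx₂
  have hx₂0 : x₂ ≠ 0 := by
    rintro rfl
    rw [smulW_zero_left] at hx₂
    exact hμ0' hx₂.symm
  refine ⟨x₁ * x₂⁻¹, ?_⟩
  rw [← smulW_smulW, hx₁, ← hx₂, smulW_smulW, mul_inv_cancel₀ hx₂0, smulW_one]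

theorem IsCanonical.ne_zero {lam : Module.Dual K (Adele K F)} {W : Divisor K F}
    (h : IsCanonical lam W) : lam ≠ 0 := by
  obtain ⟨v⟩ := IsFF1.nonempty_place (K := K) (F := F)
  obtain ⟨α, -, hα⟩ := h.maximal v
  rintro rfl
  exact hα rfl

omit [IsFF1 K F] in
theorem IsCanonical.mem_weilSpace {lam : Module.Dual K (Adele K F)} {W : Divisor K F}
    (h : IsCanonical lam W) : lam ∈ weilSpace W :=
  mem_weilSpace_iff.mpr ⟨h.vanish, h.principal⟩

/-- if `lam` (with divisor `W`) vanishes on `A(D)` then `D ≤ W` -/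
theorem IsCanonical.le {lam : Module.Dual K (Adele K F)} {W : Divisor K F}
    (h : IsCanonical lam W) {D : Divisor K F} (hD : ∀ α ∈ repartitionsOf D, lam α = 0) :
    D ≤ W := by
  classical
  by_contra hcon
  obtain ⟨v, hv⟩ : ∃ v, ¬ D v ≤ W v := by
    by_contra h'
    push Not at h'
    exact hcon h'
  obtain ⟨α, hα, hα0⟩ := h.maximal v
  apply hα0
  have hle : W + Finsupp.single v 1 ≤ W ⊔ D := by
    intro w
    rw [Finsupp.add_apply, Finsupp.sup_apply]
    by_cases hw : w = v
    · subst hw
      rw [Finsupp.single_eq_same]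
      refine le_max_of_le_right ?_
      omega
    · rw [Finsupp.single_eq_of_ne hw, add_zero]
      exact le_max_left _ _
  have hα' := repartitionsOf_mono hle hα
  rw [← repartitionsOf_sup, Submodule.mem_sup] at hα'
  obtain ⟨β, hβ, γ, hγ, rfl⟩ := hα'
  rw [map_add, h.vanish β hβ, hD γ hγ, add_zero]

theorem IsCanonical.smulW {lam : Module.Dual K (Adele K F)} {W : Divisor K F}
    (h : IsCanonical lam W) {x : F} (hx : x ≠ 0) : IsCanonical (smulW x lam) (W + divOf K x) := by
  have hmem := mem_weilSpace_iff.mp (smulW_mem_weilSpace hx h.mem_weilSpace)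
  refine ⟨hmem.2, hmem.1, fun v => ?_⟩
  obtain ⟨α, hα, hα0⟩ := h.maximal v
  refine ⟨x⁻¹ • α, ?_, ?_⟩
  · have e : W + divOf K x + Finsupp.single v 1 = W + Finsupp.single v 1 + divOf K x := by abel
    rw [e, ← smul_mem_repartitionsOf_iff hx, smul_smul, mul_inv_cancel₀ hx, one_smul]
    exact hα
  · rw [smulW_apply, smul_smul, mul_inv_cancel₀ hx, one_smul]
    exact hα0

/-- **Duality theorem** (Stichtenoth 1.5.14). -/
theorem IsCanonical.idx_eq {lam : Module.Dual K (Adele K F)} {W : Divisor K F}
    (h : IsCanonical lam W) (D : Divisor K F) : idx D = ell (W - D) := by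
  rw [← finrank_weilSpace, ← finrank_map_smulWL h.ne_zero]
  suffices hs : weilSpace D = (riemannRochSpace (W - D)).map (smulWL lam) by rw [hs]
  refine le_antisymm ?_ (map_smulWL_le h.mem_weilSpace)
  intro μ hμ
  obtain ⟨x, rfl⟩ := exists_smulW_eq h.mem_weilSpace h.ne_zero hμ
  refine ⟨x, ?_, rfl⟩
  rcases eq_or_ne x 0 with rfl | hx0
  · exact Submodule.zero_mem _
  have hle := (h.smulW hx0).le (mem_weilSpace_iff.mp hμ).1
  show x ∈ riemannRochSpace (W - D)
  rw [mem_riemannRochSpace_iff_divOf hx0]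
  have : divOf K x + (W - D) = W + divOf K x - D := by abel
  rw [this, sub_nonneg]
  exact hle

/-- **Riemann-Roch.** -/
theorem IsCanonical.rr {lam : Module.Dual K (Adele K F)} {W : Divisor K F}
    (h : IsCanonical lam W) (D : Divisor K F) :
    (ell D : ℤ) - ell (W - D) = Divisor.degree D + 1 - genusFF K F := by
  rw [← h.idx_eq D]; exact rr1 D

theorem IsCanonical.ell_eq {lam : Module.Dual K (Adele K F)} {W : Divisor K F}
    (h : IsCanonical lam W) : ell W = genusFF K F := by
  have := h.idx_eq 0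
  rw [sub_zero] at this
  rw [← this]; rfl

theorem IsCanonical.degree_eq {lam : Module.Dual K (Adele K F)} {W : Divisor K F}
    (h : IsCanonical lam W) : Divisor.degree W = 2 * genusFF K F - 2 := by
  have h1 := h.rr W
  rw [sub_self, ell_zero, h.ell_eq] at h1
  push_cast at h1
  omega

/-- every nonzero Weil differential has a divisor (Stichtenoth 1.5.10) -/
theorem exists_isCanonical {D : Divisor K F} {lam : Module.Dual K (Adele K F)}
    (h : lam ∈ weilSpace D) (h0 : lam ≠ 0) : ∃ W : Divisor K F, IsCanonical lam W := by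
  obtain ⟨c, hc⟩ := exists_idx_eq_zero (K := K) (F := F)
  have hbdd : ∀ D' : Divisor K F, lam ∈ weilSpace D' → Divisor.degree D' ≤ c := by
    intro D' hD'
    by_contra hcon
    push Not at hcon
    have h1 := hc D' hcon.le
    rw [← finrank_weilSpace] at h1
    have h2 : weilSpace D' = ⊥ := Submodule.finrank_eq_zero.mp h1
    rw [h2, Submodule.mem_bot] at hD'
    exact h0 hD'
  obtain ⟨d, ⟨W, hW, rfl⟩, hmax⟩ := Int.exists_greatest_of_bdd
    (P := fun z => ∃ D' : Divisor K F, lam ∈ weilSpace D' ∧ Divisor.degree D' = z)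
    ⟨c, by rintro z ⟨D', hD', rfl⟩; exact hbdd D' hD'⟩ ⟨_, D, h, rfl⟩
  have hW' := mem_weilSpace_iff.mp hW
  refine ⟨W, hW'.2, hW'.1, fun v => ?_⟩
  by_contra hcon
  push Not at hcon
  have := hmax _ ⟨W + Finsupp.single v 1, mem_weilSpace_iff.mpr ⟨hcon, hW'.2⟩, rfl⟩
  rw [map_add, degree_single] at this
  omega

/-- canonical divisors exist -/
theorem exists_canonical :
    ∃ (lam : Module.Dual K (Adele K F)) (W : Divisor K F), IsCanonical lam W := by
  obtain ⟨v⟩ := IsFF1.nonempty_place (K := K) (F := F)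
  have hdeg : Divisor.degree (Finsupp.single v (-2) : Divisor K F) = -2 := degree_single v _
  have e := rr1 (Finsupp.single v (-2) : Divisor K F)
  rw [ell_eq_zero (by rw [hdeg]; omega), hdeg] at e
  have hpos : 0 < Module.finrank K (weilSpace (Finsupp.single v (-2) : Divisor K F)) := by
    rw [finrank_weilSpace]
    push_cast at e
    omega
  have hne : weilSpace (Finsupp.single v (-2) : Divisor K F) ≠ ⊥ := by
    intro h
    rw [h, finrank_bot] at hpos
    exact lt_irrefl _ hpos
  obtain ⟨lam, hlam, hlam0⟩ := Submodule.exists_mem_ne_zero_of_ne_bot hne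
  obtain ⟨W, hW⟩ := exists_isCanonical hlam hlam0
  exact ⟨lam, W, hW⟩

theorem idx_eq_zero_of_lt {D : Divisor K F} (h : 2 * (genusFF K F : ℤ) - 2 < Divisor.degree D) :
    idx D = 0 := by
  obtain ⟨lam, W, hW⟩ := exists_canonical (K := K) (F := F)
  rw [hW.idx_eq D]
  apply ell_eq_zero
  rw [map_sub, hW.degree_eq]
  omega

theorem ell_eq_of_lt {D : Divisor K F} (h : 2 * (genusFF K F : ℤ) - 2 < Divisor.degree D) :
    (ell D : ℤ) = Divisor.degree D + 1 - genusFF K F := by
  have := rr1 D
  rw [idx_eq_zero_of_lt h] at this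
  simpa using this

end Fermat.Agent.RR
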