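import Fermat.Agent.RR.Residue
import Fermat.Agent.RR.Weil
import Fermat.Prelude.Def_AlgebraicCurve_CanonicalDivisor

/-!
# RR library, WP R5: Kaehler differentials are Weil differentials; Riemann-Roch with the Prelude
canonical divisor (`Place.ordDifferential`, `HasCanonicalDivisor`, `genus`).
-/

set_option autoImplicit false

open AlgebraicCurve WithZero KaehlerDifferential

namespace Fermat.Agent.RR

variable {K F : Type*} [Field K] [Field F] [Algebra K F] [IsFF1 K F]

theorem D_ne_zero_of_ord_eq_one (v : Place K F) {t : F} (ht : v.ord t = 1) : D K F t ≠ 0 := by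
  intro h
  have := weil_asingle_inv v ht
  rw [h, smul_zero, map_zero] at this
  exact zero_ne_one this

omit [IsFF1 K F] in
theorem exists_dCoord_eq (v : Place K F) : ∃ t : F, v.ord t = 1 ∧ v.dCoord = D K F t :=
  ⟨_, v.ord_coe_irreducible
    (IsDiscreteValuationRing.exists_irreducible v.toValuationSubring).choose_spec, rfl⟩

variable (h1 : Module.finrank F Ω[F⁄K] = 1)

include h1

theorem dCoordGenerates (v : Place K F) : v.DCoordGenerates := by
  obtain ⟨t, ht, hd⟩ := exists_dCoord_eq v
  refine ⟨(finrank_eq_one_iff_of_nonzero _ ?_).mp h1⟩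
  rw [hd]
  exact D_ne_zero_of_ord_eq_one v ht

omit [IsFF1 K F] in
theorem nontrivial_kaehler : Nontrivial Ω[F⁄K] :=
  Module.nontrivial_of_finrank_eq_succ (n := 0) h1

/-- local description of a differential -/
theorem exists_local_rep (v : Place K F) (ω : Ω[F⁄K]) :
    ∃ t c : F, v.ord t = 1 ∧ ω = c • D K F t ∧ v.ordDifferential ω = v.ord c ∧
      (ω ≠ 0 → c ≠ 0) := by
  have := dCoordGenerates h1 v
  obtain ⟨t, ht, hd⟩ := exists_dCoord_eq v
  refine ⟨t, v.differentialCoeff ω, ht, ?_, rfl, ?_⟩
  · rw [← hd, v.differentialCoeff_smul_dCoord]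
  · intro hω hc
    apply hω
    rw [← v.differentialCoeff_smul_dCoord ω, hc, zero_smul]

/-- local vanishing -/
theorem weil_asingle_eq_zero (v : Place K F) (ω : Ω[F⁄K]) {a : F}
    (h : a = 0 ∨ 0 ≤ v.ord a + v.ordDifferential ω) : weil ω (asingle v a) = 0 := by
  rcases eq_or_ne a 0 with rfl | ha
  · rw [map_zero, map_zero]
  rcases eq_or_ne ω 0 with rfl | hω
  · rw [map_zero]; rfl
  have h := h.resolve_left ha
  obtain ⟨t, c, ht, hωc, hord, hc⟩ := exists_local_rep h1 v ω
  have hc := hc hω
  rw [hord] at h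
  rw [hωc]
  apply weil_eq_zero_of_forall
  intro w
  by_cases hw : w = v
  · subst hw
    right
    rw [aeval_asingle_self]
    refine ⟨mem_ball_iff.mpr (Or.inr ?_), mem_ball_iff.mpr (Or.inr ?_)⟩
    · rw [w.ord_mul ha hc]; omega
    · rw [ht]; norm_num
  · left
    exact aeval_asingle_of_ne hw a

/-- local non-vanishing -/
theorem exists_weil_asingle_ne_zero (v : Place K F) {ω : Ω[F⁄K]} (hω : ω ≠ 0) :
    ∃ a : F, a ≠ 0 ∧ v.ord a + v.ordDifferential ω = -1 ∧ weil ω (asingle v a) ≠ 0 := by
  obtain ⟨t, c, ht, hωc, hord, hc⟩ := exists_local_rep h1 v ω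
  have hc := hc hω
  have ht0 : t ≠ 0 := by rintro rfl; simp at ht
  refine ⟨t⁻¹ * c⁻¹, mul_ne_zero (inv_ne_zero ht0) (inv_ne_zero hc), ?_, ?_⟩
  · rw [hord, v.ord_mul (inv_ne_zero ht0) (inv_ne_zero hc), v.ord_inv, v.ord_inv, ht]
    ring
  · have : weil ω (asingle v (t⁻¹ * c⁻¹)) = 1 := by
      rw [← weil_asingle_inv v ht, hωc, weil_smul, weil_smul, ← map_smul, ← map_smul,
        smul_eq_mul, smul_eq_mul, mul_one]
      congr 2
      field_simp
    rw [this]
    exact one_ne_zero

theorem weil_ne_zero {ω : Ω[F⁄K]} (hω : ω ≠ 0) : weil ω ≠ 0 := by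
  obtain ⟨v⟩ := IsFF1.nonempty_place (K := K) (F := F)
  obtain ⟨a, -, -, ha⟩ := exists_weil_asingle_ne_zero h1 v hω
  intro h
  apply ha
  rw [h]; rfl

/-- `weil ω` vanishes on `A(D)` as soon as `D ≤ div ω` -/
theorem weil_eq_zero_of_le (ω : Ω[F⁄K]) {D : Divisor K F} (hD : ∀ v, D v ≤ v.ordDifferential ω)
    {α : Adele K F} (hα : α ∈ repartitionsOf D) : weil ω α = 0 := by
  rw [weil_eq_finsum]
  refine finsum_eq_zero_of_forall_eq_zero fun v => ?_
  rw [← weil_asingle]
  apply weil_asingle_eq_zero h1
  rcases mem_ball_iff.mp (hα v) with h | h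
  · exact Or.inl h
  · right
    have h2 := hD v
    have h3 : v.ord ((α : Place K F → F) v) = v.ord (aeval v α) := rfl
    rw [h3] at h
    omega

theorem finite_ordDifferential_neg {ω : Ω[F⁄K]} (hω : ω ≠ 0) :
    {v : Place K F | v.ordDifferential ω < 0}.Finite := by
  obtain ⟨v₀⟩ := IsFF1.nonempty_place (K := K) (F := F)
  obtain ⟨g, f, -, hωf, -, -⟩ := exists_local_rep h1 v₀ ω
  refine ((finite_ord_neg K f).union (finite_ord_neg K g)).subset ?_
  intro v hv
  have hv : v.ordDifferential ω < 0 := hv
  by_contra hcon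
  simp only [Set.mem_union, not_or] at hcon
  obtain ⟨a, ha0, ha, hne⟩ := exists_weil_asingle_ne_zero h1 v hω
  apply hne
  rw [weil_asingle, hωf, smul_smul]
  refine resAt_eq_zero v ?_ (mem_ball_zero_of_not_lt hcon.2)
  have := mul_mem_ball (v := v) (m := 0) (n := 0) (f := a) (g := f)
    (mem_ball_iff.mpr (Or.inr (by omega))) (mem_ball_zero_of_not_lt hcon.1)
  rwa [add_zero] at this

theorem finite_ordDifferential_pos {ω : Ω[F⁄K]} (hω : ω ≠ 0) :
    {v : Place K F | 0 < v.ordDifferential ω}.Finite := by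
  classical
  by_contra hinf
  have hinf : {v : Place K F | 0 < v.ordDifferential ω}.Infinite := hinf
  obtain ⟨c, hc⟩ := exists_idx_eq_zero (K := K) (F := F)
  set Pol := (finite_ordDifferential_neg h1 hω).toFinset with hPol
  obtain ⟨T, hTZ, hTc⟩ := hinf.exists_subset_card_eq
    (c - ∑ v ∈ Pol, v.ordDifferential ω).toNat
  set DT : Divisor K F := ∑ v ∈ T, Finsupp.single v 1 +
    ∑ v ∈ Pol, Finsupp.single v (v.ordDifferential ω) with hDT
  have happ : ∀ w, DT w = (if w ∈ T then 1 else 0) +
      (if w ∈ Pol then w.ordDifferential ω else 0) := by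
    intro w
    rw [hDT, Finsupp.add_apply, Finsupp.finsetSum_apply, Finsupp.finsetSum_apply]
    simp only [Finsupp.single_apply]
    rw [Finset.sum_ite_eq' T w, Finset.sum_ite_eq' Pol w]
  have hle : ∀ w, DT w ≤ w.ordDifferential ω := by
    intro w
    rw [happ]
    by_cases hwT : w ∈ T
    · have h0 : 0 < w.ordDifferential ω := hTZ hwT
      have hwP : w ∉ Pol := by
        rw [hPol, Set.Finite.mem_toFinset]
        intro (h : w.ordDifferential ω < 0)
        omega
      rw [if_pos hwT, if_neg hwP]
      omega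
    · rw [if_neg hwT]
      by_cases hwP : w ∈ Pol
      · rw [if_pos hwP]; omega
      · rw [if_neg hwP]
        rw [hPol, Set.Finite.mem_toFinset] at hwP
        have : ¬ w.ordDifferential ω < 0 := hwP
        omega
  have hdeg : c ≤ Divisor.degree DT := by
    rw [hDT, map_add, map_sum, map_sum]
    simp only [degree_single]
    rw [Finset.sum_const, hTc]
    have := Int.self_le_toNat (c - ∑ v ∈ Pol, v.ordDifferential ω)
    simp only [nsmul_eq_mul, mul_one]
    omega
  have htop := idx_eq_zero_iff.mp (hc DT hdeg)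
  apply weil_ne_zero h1 hω
  apply LinearMap.ext
  intro α
  have hα : α ∈ repartitionsOf DT ⊔ principalRepartitions K F := by rw [htop]; trivial
  obtain ⟨a, ha, b, hb, rfl⟩ := Submodule.mem_sup.mp hα
  obtain ⟨x, rfl⟩ := mem_principalRepartitions_iff'.mp hb
  rw [map_add, weil_eq_zero_of_le h1 ω hle ha, weil_principal, add_zero]
  rfl

theorem finite_ordDifferential_ne_zero {ω : Ω[F⁄K]} (hω : ω ≠ 0) :
    {v : Place K F | v.ordDifferential ω ≠ 0}.Finite := by
  refine ((finite_ordDifferential_neg h1 hω).union (finite_ordDifferential_pos h1 hω)).subset ?_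
  intro v hv
  have hv : v.ordDifferential ω ≠ 0 := hv
  rcases lt_or_gt_of_ne hv with h | h
  · exact Or.inl h
  · exact Or.inr h

theorem hasCanonicalDivisor : HasCanonicalDivisor (K := K) (F := F) := by
  refine ⟨fun ω hω => ?_⟩
  exact ⟨Finsupp.onFinset (finite_ordDifferential_ne_zero h1 hω).toFinset
    (fun v => v.ordDifferential ω) (fun v hv => by simpa using hv), fun v => rfl⟩

/-- the divisor of a Kaehler differential is the divisor of the associated Weil differential -/
theorem isCanonical_weil {ω : Ω[F⁄K]} (hω : ω ≠ 0) {W : Divisor K F}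
    (hW : ∀ v, W v = v.ordDifferential ω) : IsCanonical (weil ω) W where
  principal := weil_principal ω
  vanish := fun _ hα => weil_eq_zero_of_le h1 ω (fun v => (hW v).le) hα
  maximal := by
    intro v
    obtain ⟨a, ha0, ha, hne⟩ := exists_weil_asingle_ne_zero h1 v hω
    refine ⟨asingle v a, ?_, hne⟩
    intro w
    show aeval w (asingle v a) ∈ ball w _
    by_cases hw : w = v
    · subst hw
      rw [aeval_asingle_self, Finsupp.add_apply, Finsupp.single_eq_same, hW]
      exact mem_ball_iff.mpr (Or.inr (by omega))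
    · rw [aeval_asingle_of_ne hw]
      exact zero_mem _

/-- **Riemann-Roch** with the divisor of a Kaehler differential. -/
theorem rr_kaehler {ω : Ω[F⁄K]} (hω : ω ≠ 0) {W : Divisor K F}
    (hW : ∀ v, W v = v.ordDifferential ω) (D : Divisor K F) :
    (ell D : ℤ) - ell (W - D) = Divisor.degree D + 1 - genusFF K F :=
  (isCanonical_weil h1 hω hW).rr D

theorem degree_kaehler {ω : Ω[F⁄K]} (hω : ω ≠ 0) {W : Divisor K F}
    (hW : ∀ v, W v = v.ordDifferential ω) : Divisor.degree W = 2 * genusFF K F - 2 :=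
  (isCanonical_weil h1 hω hW).degree_eq

/-- the Prelude genus (via the degree of the canonical divisor) is the adelic genus -/
theorem genus_eq_genusFF [HasCanonicalDivisor (K := K) (F := F)] :
    genus K F = genusFF K F := by
  have := nontrivial_kaehler h1
  have hex : ∃ ω : Ω[F⁄K], ω ≠ 0 := exists_ne 0
  unfold genus
  rw [dif_pos hex, degree_kaehler h1 hex.choose_spec (canonicalDivisorOf_apply hex.choose_spec)]
  omega

theorem ordDifferential_smul (v : Place K F) {f : F} (hf : f ≠ 0) {ω : Ω[F⁄K]} (hω : ω ≠ 0) :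
    v.ordDifferential (f • ω) = v.ord f + v.ordDifferential ω := by
  have := dCoordGenerates h1 v
  have := nontrivial_kaehler h1
  apply v.ordDifferential_smul hf
  intro hc
  apply hω
  rw [← v.differentialCoeff_smul_dCoord ω, hc, zero_smul]

/-- the space of regular differentials -/
def regularDifferentials (K F : Type*) [Field K] [Field F] [Algebra K F] :
    Set Ω[F⁄K] := {ω | ω = 0 ∨ ∀ v : Place K F, 0 ≤ v.ordDifferential ω}

/-- the regular differentials form a `K`-vector space of dimension `genusFF` -/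
theorem exists_regular_submodule : ∃ S : Submodule K Ω[F⁄K],
    (S : Set Ω[F⁄K]) = regularDifferentials K F ∧ Module.finrank K S = genusFF K F := by
  have := nontrivial_kaehler h1
  obtain ⟨ω₀, hω₀⟩ : ∃ ω : Ω[F⁄K], ω ≠ 0 := exists_ne 0
  obtain ⟨W, hW⟩ := (hasCanonicalDivisor h1).exists_divisor ω₀ hω₀
  set φ : F →ₗ[K] Ω[F⁄K] := (LinearMap.toSpanSingleton F Ω[F⁄K] ω₀).restrictScalars K with hφ
  have hφa : ∀ f, φ f = f • ω₀ := fun f => rfl
  have hinj : Function.Injective φ := by
    intro a b hab
    rw [hφa, hφa] at hab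
    exact smul_left_injective F hω₀ hab
  refine ⟨(riemannRochSpace W).map φ, ?_, ?_⟩
  · ext ω
    constructor
    · rintro ⟨f, hf, rfl⟩
      rcases eq_or_ne f 0 with rfl | hf0
      · left; rw [map_zero]
      · right
        intro v
        rw [hφa, ordDifferential_smul h1 v hf0 hω₀, ← hW]
        have := ((mem_riemannRochSpace_iff.mp hf) v).resolve_left hf0
        omega
    · rintro (rfl | hω)
      · exact zero_mem _
      · have htop := (finrank_eq_one_iff_of_nonzero ω₀ hω₀).mp h1
        have hmem : ω ∈ Submodule.span F {ω₀} := by rw [htop]; trivial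
        obtain ⟨f, rfl⟩ := Submodule.mem_span_singleton.mp hmem
        refine ⟨f, ?_, rfl⟩
        rcases eq_or_ne f 0 with rfl | hf0
        · exact zero_mem _
        · rw [SetLike.mem_coe, mem_riemannRochSpace_iff]
          intro v
          right
          have := hω v
          rw [ordDifferential_smul h1 v hf0 hω₀, ← hW] at this
          omega
  · rw [← (isCanonical_weil h1 hω₀ hW).ell_eq]
    exact (Submodule.equivMapOfInjective φ hinj (riemannRochSpace W)).finrank_eq.symm

end Fermat.Agent.RR
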