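import Fermat.Agent.RR.Defs
import Fermat.Agent.S27.LSpace.Riemann

/-!
# RR library, WP R1: Riemann-Roch spaces `L(D)` (Prelude `riemannRochSpace`)

Proofs: citations of the characteristic free core `S27/LSpace/Core.lean`, `S27/LSpace/Riemann.lean`
(class `S27.FFBase`), through the instance `IsFF1 K F → S27.FFBase K F`.
-/

set_option autoImplicit false

open AlgebraicCurve WithZero

namespace Fermat.Agent.RR

variable {K F : Type*} [Field K] [Field F] [Algebra K F]

instance instFFBase [IsFF1 K F] : S27.FFBase K F where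
  residue_surjective := IsFF1.residue_surjective
  nonempty_place := IsFF1.nonempty_place

theorem divOf_eq_dv [IsFF1 K F] (f : F) : divOf K f = S27.FFBase.dv f := by
  ext v
  rw [divOf_apply, S27.FFBase.dv_apply]

section Degree

variable [IsFF1 K F]

theorem deg_eq_one (v : Place K F) : v.deg = 1 :=
  S27.FFBase.deg_eq_one v

theorem degree_single (v : Place K F) (n : ℤ) :
    Divisor.degree (Finsupp.single v n) = n := by
  rw [Divisor.degree_single, deg_eq_one]; simp

theorem degree_eq_sum (D : Divisor K F) : Divisor.degree D = D.sum fun _ n => n :=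
  S27.FFBase.degree_eq_sum D

theorem degree_nonneg {D : Divisor K F} (h : 0 ≤ D) : 0 ≤ Divisor.degree D :=
  S27.FFBase.degree_nonneg h

theorem degree_mono {D D' : Divisor K F} (h : D ≤ D') :
    Divisor.degree D ≤ Divisor.degree D' :=
  S27.FFBase.degree_mono h

/-- induction upwards from `D`, one place at a time -/
theorem induction_le {D : Divisor K F} {P : Divisor K F → Prop} (h0 : P D)
    (hstep : ∀ E : Divisor K F, D ≤ E → ∀ v : Place K F, P E → P (E + Finsupp.single v 1))
    {D' : Divisor K F} (h : D ≤ D') : P D' :=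
  S27.FFBase.induction_ge D h0 (fun E v hE hP => hstep E hE v hP) D' h

end Degree

section LC

variable [IsFF1 K F]

/-- every element of `O_v` is congruent to a constant -/
theorem exists_residue (v : Place K F) {f : F} (hf : f ∈ ball v 0) :
    ∃ c : K, f - algebraMap K F c ∈ ball v (-1) := by
  obtain ⟨c, hc⟩ := S27.FFBase.exists_value v (f := f) (by simpa [mem_ball] using hf)
  refine ⟨c, ?_⟩
  rw [mem_ball, ← S27.FFBase.lt_exp_add_one_iff]
  simpa using hc

/-- "leading coefficient" at `v` on `{ord_v ≥ -n}` (depends on the choice of a uniformizer) -/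
theorem exists_lc (v : Place K F) (n : ℤ) :
    ∃ φ : ball v n →ₗ[K] K, Function.Surjective φ ∧
      ∀ x : ball v n, φ x = 0 ↔ (x : F) ∈ ball v (n - 1) := by
  obtain ⟨s, hs0, hs⟩ := S27.FFBase.exists_unif_zpow v (-n)
  have hmem : ∀ x : ball v n, (x : F) * s ∈ v.toValuationSubring := by
    intro x
    rw [← S27.FFBase.adic_le_one_iff, map_mul, hs]
    calc v.adicValuation (x : F) * exp (-n) ≤ exp n * exp (-n) := by
          gcongr
          exact x.2
      _ = 1 := by rw [← exp_add]; simp
  let ψ : ball v n →ₗ[K] v.ResidueField :=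
    { toFun := fun x => IsLocalRing.residue _ ⟨(x : F) * s, hmem x⟩
      map_add' := by
        intro x y
        rw [← map_add]
        congr 1
        apply Subtype.ext
        show ((x : F) + y) * s = x * s + y * s
        ring
      map_smul' := by
        intro c x
        have e : (⟨((c • x : ball v n) : F) * s, hmem (c • x)⟩ : v.toValuationSubring) =
            algebraMap K v.toValuationSubring c * ⟨(x : F) * s, hmem x⟩ := by
          apply Subtype.ext
          show (c • (x : F)) * s = algebraMap K F c * ((x : F) * s)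
          rw [Algebra.smul_def]
          ring
        rw [e, map_mul, RingHom.id_apply, Algebra.smul_def]
        rfl }
  let e : K ≃ₗ[K] v.ResidueField := LinearEquiv.ofBijective (Algebra.linearMap K v.ResidueField)
    ⟨(algebraMap K v.ResidueField).injective, IsFF1.residue_surjective v⟩
  have hker : ∀ x : ball v n, ψ x = 0 ↔ (x : F) ∈ ball v (n - 1) := by
    intro x
    show IsLocalRing.residue _ (⟨(x : F) * s, hmem x⟩ : v.toValuationSubring) = 0 ↔ _
    rw [IsLocalRing.residue_eq_zero_iff, IsLocalRing.mem_maximalIdeal, mem_nonunits_iff,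
      ← v.adicValuation_coe_eq_one_iff, mem_ball]
    show ¬ v.adicValuation ((x : F) * s) = 1 ↔ _
    have h1 : v.adicValuation ((x : F) * s) ≤ 1 := (S27.FFBase.adic_le_one_iff v).2 (hmem x)
    have h2 : ¬ v.adicValuation ((x : F) * s) = 1 ↔ v.adicValuation ((x : F) * s) < 1 :=
      ⟨fun h => lt_of_le_of_ne h1 h, fun h => h.ne⟩
    rw [h2, map_mul, hs, ← S27.FFBase.lt_exp_add_one_iff, sub_add_cancel]
    constructor
    · intro h
      calc v.adicValuation (x : F) = v.adicValuation (x : F) * exp (-n) * exp n := by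
            rw [mul_assoc, ← exp_add]; simp
        _ < 1 * exp n := mul_lt_mul_of_pos_right h (by simp)
        _ = exp n := one_mul _
    · intro h
      calc v.adicValuation (x : F) * exp (-n) < exp n * exp (-n) :=
            mul_lt_mul_of_pos_right h (by simp)
        _ = 1 := by rw [← exp_add]; simp
  refine ⟨e.symm.toLinearMap ∘ₗ ψ, ?_, ?_⟩
  · intro c
    have hx : c • s⁻¹ ∈ ball v n := by
      refine Submodule.smul_mem _ c ?_
      rw [mem_ball, map_inv₀, hs, ← exp_neg, neg_neg]
    refine ⟨⟨c • s⁻¹, hx⟩, ?_⟩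
    rw [LinearMap.comp_apply, LinearEquiv.coe_coe, LinearEquiv.symm_apply_eq]
    show IsLocalRing.residue _ (⟨(c • s⁻¹) * s, _⟩ : v.toValuationSubring) =
      algebraMap K v.ResidueField c
    have e2 : (⟨(c • s⁻¹) * s, hmem ⟨c • s⁻¹, hx⟩⟩ : v.toValuationSubring) =
        algebraMap K v.toValuationSubring c := by
      apply Subtype.ext
      show (c • s⁻¹) * s = algebraMap K F c
      rw [Algebra.smul_def, mul_assoc, inv_mul_cancel₀ hs0, mul_one]
    rw [e2]
    rfl
  · intro x
    rw [LinearMap.comp_apply, LinearEquiv.coe_coe, LinearEquiv.map_eq_zero_iff]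
    exact hker x

noncomputable def lc (v : Place K F) (n : ℤ) : ball v n →ₗ[K] K := (exists_lc v n).choose

theorem lc_surjective (v : Place K F) (n : ℤ) : Function.Surjective (lc v n) :=
  (exists_lc v n).choose_spec.1

theorem lc_eq_zero_iff (v : Place K F) (n : ℤ) (x : ball v n) :
    lc v n x = 0 ↔ (x : F) ∈ ball v (n - 1) :=
  (exists_lc v n).choose_spec.2 x

end LC

section L

theorem riemannRochSpace_mono {D D' : Divisor K F} (h : D ≤ D') :
    riemannRochSpace D ≤ riemannRochSpace D' := fun _ hf v =>
  (hf v).trans (exp_le_exp.mpr (Finsupp.le_def.mp h v))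

variable [IsFF1 K F]

/-- `f ≠ 0` lies in `L(D)` iff `div f + D ≥ 0`. -/
theorem mem_riemannRochSpace_iff_divOf {D : Divisor K F} {f : F} (hf : f ≠ 0) :
    f ∈ riemannRochSpace D ↔ 0 ≤ divOf K f + D := by
  rw [mem_riemannRochSpace_iff]
  refine forall_congr' fun v => ?_
  rw [or_iff_right hf, Finsupp.add_apply, divOf_apply]
  simp only [Finsupp.coe_zero, Pi.zero_apply]
  omega

/-- a function without poles is constant -/
theorem riemannRochSpace_zero :
    riemannRochSpace (0 : Divisor K F) = LinearMap.range (Algebra.linearMap K F) := by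
  ext f
  rw [S27.FFBase.mem_L_zero_iff]
  rfl

theorem riemannRochSpace_eq_bot {D : Divisor K F} (h : Divisor.degree D < 0) :
    riemannRochSpace D = ⊥ :=
  S27.FFBase.L_eq_bot_of_degree_neg h

instance finiteDimensional_riemannRochSpace (D : Divisor K F) :
    FiniteDimensional K (riemannRochSpace D) :=
  S27.FFBase.finiteDimensional_L D

theorem ell_mono {D D' : Divisor K F} (h : D ≤ D') : ell D ≤ ell D' :=
  S27.FFBase.finrank_L_mono h

theorem ell_add_single_le (D : Divisor K F) (v : Place K F) :
    ell (D + Finsupp.single v 1) ≤ ell D + 1 :=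
  S27.FFBase.finrank_L_add_single_le D v

theorem ell_zero : ell (0 : Divisor K F) = 1 :=
  S27.FFBase.finrank_L_zero

theorem ell_eq_zero {D : Divisor K F} (h : Divisor.degree D < 0) : ell D = 0 := by
  unfold ell
  rw [riemannRochSpace_eq_bot h, finrank_bot]

theorem ell_pos_iff {D : Divisor K F} : 0 < ell D ↔ ∃ f : F, f ≠ 0 ∧ f ∈ riemannRochSpace D := by
  unfold ell
  rw [Module.finrank_pos_iff_exists_ne_zero]
  constructor
  · rintro ⟨x, hx⟩
    exact ⟨x, fun h => hx (Subtype.ext h), x.2⟩
  · rintro ⟨f, hf0, hf⟩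
    exact ⟨⟨f, hf⟩, fun h => hf0 (congrArg Subtype.val h)⟩

/-- `deg D - ℓ(D)` is monotone -/
theorem degree_sub_ell_mono {D D' : Divisor K F} (h : D ≤ D') :
    Divisor.degree D - ell D ≤ Divisor.degree D' - ell D' :=
  S27.FFBase.degree_sub_finrank_mono h

theorem ell_le_degree_add_one {D : Divisor K F} (h : 0 ≤ Divisor.degree D) :
    (ell D : ℤ) ≤ Divisor.degree D + 1 :=
  S27.FFBase.finrank_L_le_degree_add_one (by omega)

/-- multiplication by `f` : `L(D + div f) ≃ L(D)` -/
theorem ell_add_divOf (D : Divisor K F) {f : F} (hf : f ≠ 0) : ell (D + divOf K f) = ell D := by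
  rw [divOf_eq_dv]
  exact S27.FFBase.finrank_L_add_dv D hf

/-- Riemann's theorem, first form (Stichtenoth 1.4.14). -/
theorem exists_riemann_bound : ∃ γ : ℤ, ∀ D : Divisor K F, Divisor.degree D - ell D ≤ γ := by
  obtain ⟨B, γ, hB, h⟩ := IsFF1.riemann_bound (K := K) (F := F)
  exact ⟨γ, S27.FFBase.riemann_bound_of_multiples B γ hB h⟩

end L

/-- the parameter-specific input: `IsFF1` from a finite parameter `x` with
`deg (x)_∞ ≤ [F : K(x)]`. -/
theorem IsFF1.of_param [S27.FFBase K F] (x : F) (hx : Transcendental K x)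
    [FiniteDimensional (IntermediateField.adjoin K {x}) F]
    (hdeg : Divisor.degree (S27.FFBase.poleDiv (K := K) x) ≤
      Module.finrank (IntermediateField.adjoin K {x}) F) : IsFF1 K F where
  residue_surjective := S27.FFBase.residue_surjective
  nonempty_place := S27.FFBase.nonempty_place
  riemann_bound := by
    obtain ⟨γ, hγ⟩ := S27.FFBase.riemann_bound_multiples x hx hdeg
    exact ⟨_, γ, S27.FFBase.poleDiv_ne_zero_of_transcendental hx, hγ⟩

end Fermat.Agent.RR
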