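import Fermat.Agent.RR.Adele

/-!
# RR library, WP R2b: Riemann-Roch, first form (Stichtenoth 1.5.4), for the Prelude `H1`, `genusFF`
-/

set_option autoImplicit false

open AlgebraicCurve WithZero

namespace Fermat.Agent.RR

variable {K F : Type*} [Field K] [Field F] [Algebra K F] [IsFF1 K F]

variable (K F) in
/-- the inputs of `S27/RR1Core.lean`. -/
theorem rrHyp : S27.Core.RRHyp K F where
  finite_poles := finite_not_le_one (K := K)
  values := fun v f hf => by
    obtain ⟨c, hc⟩ := exists_residue v (f := f) (by rw [mem_ball]; simpa using hf)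
    refine ⟨c, lt_of_le_of_lt hc ?_⟩
    rw [← exp_zero, exp_lt_exp]; omega
  deg_one := deg_eq_one
  finite_L := finiteDimensional_riemannRochSpace
  finrank_L_zero := ell_zero
  bound := exists_riemann_bound

omit [IsFF1 K F] in
theorem delta_eq (D : Divisor K F) : S27.Core.delta D = Divisor.degree D - ell D := rfl

/-- one step: if `L(D+v) ≠ L(D)` then `A(D+v) + F = A(D) + F`. -/
theorem sup_principal_eq_of_ell_lt (D : Divisor K F) (v : Place K F)
    (h : ell D < ell (D + Finsupp.single v 1)) :
    repartitionsOf (D + Finsupp.single v 1) ⊔ principalRepartitions K F =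
      repartitionsOf D ⊔ principalRepartitions K F := by
  rcases (rrHyp K F).step D v with ⟨-, h2⟩ | ⟨h1, -⟩
  · exact h2
  · exfalso
    rw [delta_eq, delta_eq, (rrHyp K F).degree_add_single] at h1
    omega

/-- `A(D) + F` is everything for `D` large (Stichtenoth 1.5.4, first half). -/
theorem exists_sup_principal_eq_top : ∃ D₀ : Divisor K F, ∀ D : Divisor K F, D₀ ≤ D →
    repartitionsOf D ⊔ principalRepartitions K F = ⊤ := by
  obtain ⟨B, hB⟩ := (rrHyp K F).exists_max
  refine ⟨B, fun D hD => top_le_iff.mp ?_⟩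
  rw [← (rrHyp K F).U_eq_top_of_max hB]
  exact S27.Core.U_mono hD

/-- one step of the Euler characteristic -/
theorem step (D : Divisor K F) (v : Place K F)
    (h : FiniteDimensional K (H1 (D + Finsupp.single v 1))) :
    FiniteDimensional K (H1 D) ∧
      (idx D : ℤ) + ell (D + Finsupp.single v 1) = idx (D + Finsupp.single v 1) + ell D + 1 := by
  obtain ⟨h1, h2⟩ := (rrHyp K F).H1_step D v h
  refine ⟨h1, ?_⟩
  rw [delta_eq, delta_eq, (rrHyp K F).degree_add_single] at h2
  unfold idx
  omega

instance finiteDimensional_H1 (D : Divisor K F) : FiniteDimensional K (H1 D) :=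
  (rrHyp K F).H1_finiteDimensional D

/-- **Riemann-Roch, first form.** -/
theorem rr1 (D : Divisor K F) :
    (ell D : ℤ) - idx D = Divisor.degree D + 1 - genusFF K F :=
  (rrHyp K F).rr1 D

/-- **Riemann's inequality.** -/
theorem riemann_inequality (D : Divisor K F) :
    Divisor.degree D + 1 - genusFF K F ≤ ell D := by
  have := rr1 D
  have h0 : (0 : ℤ) ≤ idx D := Int.natCast_nonneg _
  omega

omit [IsFF1 K F] in
theorem idx_zero : idx (0 : Divisor K F) = genusFF K F := rfl

theorem idx_antitone {D D' : Divisor K F} (h : D ≤ D') : idx D' ≤ idx D :=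
  (rrHyp K F).finrank_H1_anti h

theorem idx_eq_zero_iff {D : Divisor K F} :
    idx D = 0 ↔ repartitionsOf D ⊔ principalRepartitions K F = ⊤ :=
  (rrHyp K F).finrank_H1_eq_zero_iff D

theorem idx_add_divOf (D : Divisor K F) {f : F} (hf : f ≠ 0) : idx (D + divOf K f) = idx D := by
  have h1 := rr1 D
  have h2 := rr1 (D + divOf K f)
  rw [ell_add_divOf D hf, map_add, degree_divOf] at h2
  omega

/-- Stichtenoth 1.4.17 (the sharp constant `2g-1` is in `Weil.lean`). -/
theorem exists_idx_eq_zero : ∃ c : ℤ, ∀ D : Divisor K F, c ≤ Divisor.degree D → idx D = 0 :=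
  (rrHyp K F).exists_H1_eq_zero inferInstance

end Fermat.Agent.RR
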