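import Fermat.Agent.RR.Tate
import Fermat.Agent.RR.RR1

/-!
# RR library, WP R4c: residues on the adele ring and the Weil differential of a Kaehler differential

We apply Tate's construction ONCE, to `k = K`, `R = V = Adele K F`, `A = A(0)`.
The Weil differential attached to `ω : Ω[F⁄K]` is `α ↦ Res (α ω)`; local residues are obtained
from the idempotent adeles (`resPair_idem`: for an idempotent `e` one has `e dg = d (e g)`).
-/

set_option autoImplicit false

open AlgebraicCurve WithZero KaehlerDifferential

namespace Fermat.Agent.RR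

variable {K F : Type*} [Field K] [Field F] [Algebra K F] [IsFF1 K F]

theorem prec_add_single (E : Divisor K F) (v : Place K F) :
    Prec (repartitionsOf (E + Finsupp.single v 1)) (repartitionsOf E) := by
  obtain ⟨β, hβ⟩ := lcA_surjective E v 1
  refine ⟨Submodule.span K {(β : Adele K F)}, inferInstance, ?_⟩
  intro α hα
  have h0 : lcA E v (⟨α, hα⟩ - lcA E v ⟨α, hα⟩ • β) = 0 := by
    rw [map_sub (lcA E v) ⟨α, hα⟩ (lcA E v ⟨α, hα⟩ • β), map_smul, hβ, smul_eq_mul, mul_one,
      sub_self]
  have h1 := (lcA_eq_zero_iff E v _).mp h0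
  have h2 : α = (α - lcA E v ⟨α, hα⟩ • (β : Adele K F)) + lcA E v ⟨α, hα⟩ • (β : Adele K F) := by
    abel
  rw [h2]
  exact Submodule.add_mem_sup h1
    (Submodule.smul_mem _ _ (Submodule.mem_span_singleton_self _))

theorem prec_repartitionsOf (D D' : Divisor K F) :
    Prec (repartitionsOf D) (repartitionsOf D') := by
  have h : Prec (repartitionsOf (D ⊔ D')) (repartitionsOf D') := by
    refine induction_le (D := D') (P := fun E => Prec (repartitionsOf E) (repartitionsOf D'))
      (Prec.refl _) ?_ le_sup_right
    intro E _ v hE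
    exact (prec_add_single E v).trans hE
  exact h.mono_left (repartitionsOf_mono le_sup_left)

theorem almostStable_zero : AlmostStable (Adele K F) (repartitionsOf (0 : Divisor K F)) := by
  intro α
  rw [mem_E]
  obtain ⟨D, -, hD⟩ := exists_mem_repartitionsOf α 0
  refine (prec_repartitionsOf D 0).mono_left ?_
  rintro _ ⟨x, hx, rfl⟩
  have := mul_mem_repartitionsOf hD hx
  rw [add_zero] at this
  exact this

/-- the Weil differential attached to a Kaehler differential: `weil ω α = Res (α ω)` -/
noncomputable def weil : Ω[F⁄K] →ₗ[K] Module.Dual K (Adele K F) :=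
  weilOf (repartitionsOf (0 : Divisor K F)) almostStable_zero F

theorem weil_smul_D (f g : F) (α : Adele K F) :
    weil (f • D K F g) α = resPair (repartitionsOf (0 : Divisor K F))
      (α * algebraMap F (Adele K F) f) (algebraMap F (Adele K F) g) :=
  weilOf_smul_D _ _ F f g α

theorem weil_smul (x : F) (ω : Ω[F⁄K]) (α : Adele K F) : weil (x • ω) α = weil ω (x • α) :=
  weilOf_smul _ _ F x ω α

omit [IsFF1 K F] in
theorem aeval_algebraMap (v : Place K F) (f : F) : aeval v (algebraMap F (Adele K F) f) = f := rfl

omit [IsFF1 K F] in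
theorem mem_repartitionsOf_zero_iff {α : Adele K F} :
    α ∈ repartitionsOf (0 : Divisor K F) ↔ ∀ v, aeval v α ∈ ball v 0 := Iff.rfl

omit [IsFF1 K F] in
theorem mul_mem_zero {α β : Adele K F} (hα : α ∈ repartitionsOf (0 : Divisor K F))
    (hβ : β ∈ repartitionsOf (0 : Divisor K F)) : α * β ∈ repartitionsOf (0 : Divisor K F) := by
  have := mul_mem_repartitionsOf hα hβ
  rwa [add_zero] at this

omit [IsFF1 K F] in
/-- induction principle for Kaehler differentials -/
theorem kaehler_induction {P : Ω[F⁄K] → Prop} (h0 : P 0) (hadd : ∀ a b, P a → P b → P (a + b))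
    (hs : ∀ f g : F, P (f • D K F g)) (ω : Ω[F⁄K]) : P ω := by
  have hω : ω ∈ Submodule.span F (Set.range (D K F)) := by
    rw [KaehlerDifferential.span_range_derivation]; trivial
  obtain ⟨c, rfl⟩ := (Finsupp.mem_span_range_iff_exists_finsupp).mp hω
  unfold Finsupp.sum
  refine Finset.sum_induction _ P hadd h0 ?_
  intro g _
  exact hs _ _

/-- the residue theorem -/
theorem weil_principal (ω : Ω[F⁄K]) (x : F) : weil ω (algebraMap F (Adele K F) x) = 0 := by
  induction ω using kaehler_induction with
  | h0 => rw [map_zero]; rfl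
  | hadd a b ha hb => rw [map_add, LinearMap.add_apply, ha, hb, add_zero]
  | hs f g =>
    rw [weil_smul_D, ← map_mul]
    have hst : ∀ (y : F), ∀ z ∈ principalRepartitions K F,
        algebraMap F (Adele K F) y • z ∈ principalRepartitions K F := by
      intro y z hz
      obtain ⟨w, rfl⟩ := mem_principalRepartitions_iff'.mp hz
      rw [smul_eq_mul, ← map_mul]
      exact algebraMap_mem_principalRepartitions _
    refine resPair_eq_zero_of_compl almostStable_zero (principalRepartitions K F) (hst _) (hst _)
      ?_ (finiteDimensional_H1 (0 : Divisor K F))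
    have hle : repartitionsOf (0 : Divisor K F) ⊓ principalRepartitions K F ≤
        (riemannRochSpace (0 : Divisor K F)).map
          ((Algebra.linearMap F (Adele K F)).restrictScalars K) := by
      rintro z ⟨hz1, hz2⟩
      obtain ⟨w, rfl⟩ := mem_principalRepartitions_iff'.mp hz2
      exact ⟨w, algebraMap_mem_repartitionsOf_iff.mp hz1, rfl⟩
    exact Submodule.finiteDimensional_of_le hle

theorem indic_one_mul_self (S : Set (Place K F)) :
    indic S (1 : F) * indic S (1 : F) = indic S (1 : F) := by
  classical
  apply Adele.ext'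
  intro v
  rw [map_mul, aeval_indic]
  split_ifs <;> simp

omit [IsFF1 K F] in
theorem resPair_eq_zero_of_mem {α β : Adele K F} (hα : α ∈ repartitionsOf (0 : Divisor K F))
    (hβ : β ∈ repartitionsOf (0 : Divisor K F)) :
    resPair (repartitionsOf (0 : Divisor K F)) α β = 0 :=
  resPair_eq_zero_of_stable (fun _ hx => mul_mem_zero hα hx) (fun _ hx => mul_mem_zero hβ hx)

/-- vanishing: at each place either `α_v = 0` or both `α_v f` and `g` are regular -/
theorem weil_eq_zero_of_forall {f g : F} {α : Adele K F}
    (h : ∀ v, aeval v α = 0 ∨ (aeval v α * f ∈ ball v 0 ∧ g ∈ ball v 0)) :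
    weil (f • D K F g) α = 0 := by
  classical
  rw [weil_smul_D]
  set e : Adele K F := indic {v | aeval v α ≠ 0} (1 : F) with he
  have hαe : α * algebraMap F (Adele K F) f = α * algebraMap F (Adele K F) f * e := by
    apply Adele.ext'
    intro v
    rw [map_mul, map_mul, map_mul, he, aeval_indic]
    by_cases hv : aeval v α = 0
    · rw [hv]; simp
    · rw [if_pos (show v ∈ {v | aeval v α ≠ 0} from hv), mul_one]
  rw [hαe, resPair_idem almostStable_zero (indic_one_mul_self _), ← hαe]
  apply resPair_eq_zero_of_mem
  · intro v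
    show aeval v (α * algebraMap F (Adele K F) f) ∈ ball v 0
    rw [map_mul, aeval_algebraMap]
    rcases h v with hv | hv
    · rw [hv, zero_mul]; exact zero_mem _
    · exact hv.1
  · intro v
    show aeval v (e * algebraMap F (Adele K F) g) ∈ ball v 0
    rw [map_mul, aeval_algebraMap, he, aeval_indic]
    by_cases hv : aeval v α = 0
    · rw [if_neg (show ¬ v ∈ {v | aeval v α ≠ 0} from fun h' => h' hv), zero_mul]
      exact zero_mem _
    · rw [if_pos (show v ∈ {v | aeval v α ≠ 0} from hv), one_mul]
      exact ((h v).resolve_left hv).2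

omit [IsFF1 K F] in
theorem one_mem_ball_zero (v : Place K F) : (1 : F) ∈ ball v 0 :=
  mem_ball_zero_iff.mpr (one_mem _)

omit [IsFF1 K F] in
theorem aeval_smul_one (w : Place K F) (c : K) :
    aeval w (c • (1 : Adele K F)) = algebraMap K F c := by
  rw [Algebra.algebraMap_eq_smul_one]; rfl

/-- `res_v (dt/t) = 1` -/
theorem weil_asingle_inv (v : Place K F) {t : F} (ht : v.ord t = 1) :
    weil (t⁻¹ • D K F t) (asingle v 1) = 1 := by
  have ht0 : t ≠ 0 := by rintro rfl; simp at ht
  rw [weil_smul_D]
  set A0 := repartitionsOf (0 : Divisor K F) with hA0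
  set e : Adele K F := asingle v 1 with he
  set T : Adele K F := algebraMap F (Adele K F) t with hT
  set Ti : Adele K F := algebraMap F (Adele K F) t⁻¹ with hTi
  have ev : aeval v e = 1 := aeval_asingle_self v 1
  have ew : ∀ w, w ≠ v → aeval w e = 0 := fun w hw => aeval_asingle_of_ne hw 1
  have hee : e * e = e := by
    apply Adele.ext'; intro w
    rw [map_mul]
    by_cases hw : w = v
    · subst hw; rw [ev, mul_one]
    · rw [ew w hw, mul_zero]
  have hTT : T * Ti = 1 := by
    rw [hT, hTi, ← map_mul, mul_inv_cancel₀ ht0, map_one]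
  have hee' : (1 - e) * (1 - e) = 1 - e := by
    linear_combination hee
  have hgh : (e * T + (1 - e)) * (e * Ti + (1 - e)) = 1 := by
    linear_combination (e * e) * hTT + (2 - T - Ti) * hee
  have hAS : AlmostStable (Adele K F) A0 := almostStable_zero
  have htb : t ∈ ball v 0 := mem_ball_iff.mpr (Or.inr (by rw [ht]; norm_num))
  have htib : t⁻¹ ∈ ball v 1 := mem_ball_iff.mpr (Or.inr (by rw [v.ord_inv, ht]))
  have he'mem : 1 - e ∈ A0 := by
    intro w
    show aeval w (1 - e) ∈ ball w 0
    rw [map_sub, map_one]
    by_cases hw : w = v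
    · subst hw; rw [ev, sub_self]; exact zero_mem _
    · rw [ew w hw, sub_zero]; exact one_mem_ball_zero w
  have hγmem : e * T + (1 - e) ∈ A0 := by
    refine A0.add_mem ?_ he'mem
    intro w
    show aeval w (e * T) ∈ ball w 0
    rw [map_mul]
    by_cases hw : w = v
    · subst hw; rw [ev, one_mul]; exact htb
    · rw [ew w hw, zero_mul]; exact zero_mem _
  -- the key computation
  have key : resPair A0 (e * Ti + (1 - e)) (e * T + (1 - e)) = 1 := by
    refine resPair_inv_eq_one hAS hgh (fun x hx => mul_mem_zero hγmem hx) (β := 1) ?_ ?_ ?_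
    · intro w
      exact one_mem_ball_zero w
    · rintro ⟨x, hx, hx1⟩
      have h1 : aeval v ((e * T + (1 - e)) * x) = 1 := by
        have : (e * T + (1 - e)) * x = 1 := hx1
        rw [this, map_one]
      rw [map_mul, map_add, map_mul, map_sub, map_one, ev, sub_self, add_zero, one_mul] at h1
      have h2 : aeval v T = t := rfl
      rw [h2] at h1
      have hx0 : aeval v x ≠ 0 := by
        intro h0; rw [h0, mul_zero] at h1; exact zero_ne_one h1
      have h3 := (mem_ball_iff.mp (hx v)).resolve_left hx0
      have h4 := v.ord_mul ht0 hx0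
      rw [h1, v.ord_one, ht] at h4
      have h5 : v.ord ((x : Place K F → F) v) = v.ord (aeval v x) := rfl
      rw [h5] at h3
      have h6 : ((0 : Divisor K F) v) = 0 := rfl
      rw [h6] at h3
      omega
    · intro x hx
      obtain ⟨c, hc⟩ := exists_residue v (hx v)
      refine ⟨c, (e * Ti + (1 - e)) * (x - c • 1), ?_, ?_⟩
      · intro w
        show aeval w ((e * Ti + (1 - e)) * (x - c • 1)) ∈ ball w 0
        rw [map_mul, map_add, map_mul, map_sub, map_sub, map_one, aeval_smul_one]
        by_cases hw : w = v
        · subst hw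
          rw [ev, sub_self, add_zero, one_mul]
          have := mul_mem_ball htib hc
          rw [show (1 : ℤ) + -1 = 0 by norm_num] at this
          exact this
        · rw [ew w hw, zero_mul, zero_add, sub_zero, one_mul]
          refine (ball w 0).sub_mem (hx w) ?_
          exact mem_ball_zero_iff.mpr (w.algebraMap_mem' c)
      · show (e * T + (1 - e)) * ((e * Ti + (1 - e)) * (x - c • 1)) = x - c • 1
        rw [← mul_assoc, hgh, one_mul]
  rw [resPair_add_left hAS] at key
  have h3 : resPair A0 (1 - e) (e * T + (1 - e)) = 0 := by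
    have h31 := resPair_idem hAS hee' 1 (e * T + (1 - e))
    rw [one_mul] at h31
    rw [h31]
    have h32 : (1 - e) * (e * T + (1 - e)) = 1 - e := by
      linear_combination (1 - T) * hee
    rw [h32]
    exact resPair_eq_zero_of_mem he'mem he'mem
  rw [h3, add_zero] at key
  have h41 := resPair_idem hAS hee Ti (e * T + (1 - e))
  have h42 := resPair_idem hAS hee Ti T
  have h43 : e * (e * T + (1 - e)) = e * T := by
    linear_combination (T - 1) * hee
  rw [h43] at h41
  rw [mul_comm e Ti, h42, ← h41, mul_comm Ti e]
  exact key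

/-- the local residue at `v` -/
noncomputable def resAt (v : Place K F) : Ω[F⁄K] →ₗ[K] K where
  toFun ω := weil ω (asingle v 1)
  map_add' ω ω' := by rw [map_add]; rfl
  map_smul' c ω := by rw [map_smul]; rfl

theorem resAt_apply (v : Place K F) (ω : Ω[F⁄K]) : resAt v ω = weil ω (asingle v 1) := rfl

theorem weil_asingle (v : Place K F) (ω : Ω[F⁄K]) (a : F) :
    weil ω (asingle v a) = resAt v (a • ω) := by
  rw [resAt_apply, weil_smul, ← map_smul, smul_eq_mul, mul_one]

theorem resAt_eq_zero (v : Place K F) {f g : F} (hf : f ∈ ball v 0) (hg : g ∈ ball v 0) :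
    resAt v (f • D K F g) = 0 := by
  rw [resAt_apply]
  apply weil_eq_zero_of_forall
  intro w
  by_cases hw : w = v
  · subst hw
    right
    rw [aeval_asingle_self, one_mul]
    exact ⟨hf, hg⟩
  · left
    exact aeval_asingle_of_ne hw 1

omit [IsFF1 K F] in
theorem mem_ball_zero_of_not_lt {v : Place K F} {f : F} (h : ¬ v.ord f < 0) : f ∈ ball v 0 :=
  mem_ball_iff.mpr (Or.inr (by omega))

theorem finite_bad (f g : F) (α : Adele K F) :
    ({v : Place K F | v.ord (aeval v α) < 0} ∪ {v | v.ord f < 0} ∪ {v | v.ord g < 0}).Finite :=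
  ((Adele.finite_poles α).union (finite_ord_neg K f)).union (finite_ord_neg K g)

omit [IsFF1 K F] in
theorem resAt_aeval_eq_zero {f g : F} {α : Adele K F} {v : Place K F}
    (hv : v ∉ ({v : Place K F | v.ord (aeval v α) < 0} ∪ {v | v.ord f < 0} ∪ {v | v.ord g < 0})) :
    aeval v α * f ∈ ball v 0 ∧ g ∈ ball v 0 := by
  simp only [Set.mem_union, not_or] at hv
  obtain ⟨⟨h1, h2⟩, h3⟩ := hv
  refine ⟨?_, mem_ball_zero_of_not_lt h3⟩
  have := mul_mem_ball (mem_ball_zero_of_not_lt h1) (mem_ball_zero_of_not_lt h2)
  rwa [add_zero] at this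

theorem finite_support_resAt (ω : Ω[F⁄K]) (α : Adele K F) :
    (Function.support fun v : Place K F => resAt v (aeval v α • ω)).Finite := by
  induction ω using kaehler_induction with
  | h0 => simp
  | hadd a b ha hb =>
    refine (ha.union hb).subset ?_
    intro v hv
    by_contra hcon
    simp only [Set.mem_union, Function.mem_support, not_or, not_not] at hcon
    apply hv
    show resAt v (aeval v α • (a + b)) = 0
    rw [smul_add, map_add, hcon.1, hcon.2, add_zero]
  | hs f g =>
    refine (finite_bad f g α).subset ?_
    intro v hv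
    by_contra hcon
    apply hv
    show resAt v (aeval v α • f • D K F g) = 0
    rw [smul_smul]
    exact resAt_eq_zero v (resAt_aeval_eq_zero hcon).1 (resAt_aeval_eq_zero hcon).2

theorem finite_resAt_ne_zero (ω : Ω[F⁄K]) : {v : Place K F | resAt v ω ≠ 0}.Finite := by
  have := finite_support_resAt ω (1 : Adele K F)
  refine this.subset ?_
  intro v hv
  show resAt v (aeval v (1 : Adele K F) • ω) ≠ 0
  rw [map_one, one_smul]
  exact hv

/-- decomposition of the Weil differential into local components -/
theorem weil_eq_finsum (ω : Ω[F⁄K]) (α : Adele K F) :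
    weil ω α = ∑ᶠ v : Place K F, resAt v (aeval v α • ω) := by
  classical
  induction ω using kaehler_induction with
  | h0 => simp
  | hadd a b ha hb =>
    rw [map_add, LinearMap.add_apply, ha, hb,
      ← finsum_add_distrib (finite_support_resAt a α) (finite_support_resAt b α)]
    refine finsum_congr fun v => ?_
    rw [smul_add, map_add]
  | hs f g =>
    set S := (finite_bad f g α).toFinset with hS
    have hmem : ∀ v, v ∈ S ↔ v ∈ ({v : Place K F | v.ord (aeval v α) < 0} ∪ {v | v.ord f < 0} ∪
        {v | v.ord g < 0}) := fun v => by rw [hS, Set.Finite.mem_toFinset]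
    have hdec : α = α * indic (↑S : Set (Place K F))ᶜ (1 : F) +
        ∑ v ∈ S, asingle v (aeval v α) := by
      apply Adele.ext'
      intro w
      rw [map_add, map_mul, aeval_indic, map_sum]
      by_cases hw : w ∈ S
      · rw [if_neg (by simpa using hw), mul_zero, zero_add, Finset.sum_eq_single_of_mem w hw,
          aeval_asingle_self]
        intro b _ hb
        exact aeval_asingle_of_ne (Ne.symm hb) _
      · rw [if_pos (by simpa using hw), mul_one, Finset.sum_eq_zero, add_zero]
        intro b hb
        apply aeval_asingle_of_ne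
        rintro rfl
        exact hw hb
    have h1 : weil (f • D K F g) (α * indic (↑S : Set (Place K F))ᶜ (1 : F)) = 0 := by
      apply weil_eq_zero_of_forall
      intro w
      rw [map_mul, aeval_indic]
      by_cases hw : w ∈ S
      · left
        rw [if_neg (by simpa using hw), mul_zero]
      · right
        rw [if_pos (by simpa using hw), mul_one]
        exact resAt_aeval_eq_zero (fun h => hw ((hmem w).mpr h))
    conv_lhs => rw [hdec]
    rw [map_add, h1, zero_add, map_sum]
    rw [finsum_eq_sum_of_support_subset (s := S)]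
    · refine Finset.sum_congr rfl fun v _ => ?_
      rw [weil_asingle]
    · intro v hv
      by_contra hcon
      apply hv
      show resAt v (aeval v α • f • D K F g) = 0
      rw [smul_smul]
      have hcon' := fun h => hcon (Finset.mem_coe.mpr ((hmem v).mpr h))
      exact resAt_eq_zero v (resAt_aeval_eq_zero hcon').1 (resAt_aeval_eq_zero hcon').2

/-- **Residue theorem.** -/
theorem finsum_resAt (ω : Ω[F⁄K]) : ∑ᶠ v : Place K F, resAt v ω = 0 := by
  have h := weil_eq_finsum ω (1 : Adele K F)
  have h1 : weil ω (1 : Adele K F) = 0 := by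
    have := weil_principal ω (1 : F)
    rwa [map_one] at this
  rw [h1] at h
  rw [h]
  refine finsum_congr fun v => ?_
  rw [map_one, one_smul]

end Fermat.Agent.RR
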