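import Fermat.Agent.RR.Kaehler
import Fermat.Agent.RED.FF.IsFF1

/-!
# RR library: function fields with a separating parameter (any characteristic)

* `Ω[F⁄K]` is one-dimensional, spanned by `dx`, for `hx : IsSepParam K x`;
* the Riemann genus `RED.gR` is the adelic genus `genusFF`.
-/

set_option autoImplicit false
set_option linter.unusedSectionVars false

open AlgebraicCurve WithZero KaehlerDifferential IntermediateField

namespace Fermat.Agent.RR

section Derivation

variable {K F M : Type*} [Field K] [Field F] [Algebra K F] [AddCommGroup M] [Module F M]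
  [Module K M] [IsScalarTower K F M]

/-- the field of constants of a derivation -/
def kerField (d : Derivation K F M) : IntermediateField K F where
  carrier := {a | d a = 0}
  mul_mem' := by
    intro a b (ha : d a = 0) (hb : d b = 0)
    show d (a * b) = 0
    rw [Derivation.leibniz, ha, hb, smul_zero, smul_zero, add_zero]
  one_mem' := d.map_one_eq_zero
  add_mem' := by
    intro a b (ha : d a = 0) (hb : d b = 0)
    show d (a + b) = 0
    rw [map_add, ha, hb, add_zero]
  zero_mem' := map_zero d
  algebraMap_mem' := d.map_algebraMap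
  inv_mem' := by
    intro a (ha : d a = 0)
    show d a⁻¹ = 0
    rw [Derivation.leibniz_inv, ha, smul_zero]

theorem mem_kerField {d : Derivation K F M} {a : F} : a ∈ kerField d ↔ d a = 0 := Iff.rfl

theorem derivation_aeval_of_le (d : Derivation K F M) (E : IntermediateField K F)
    (h0 : E ≤ kerField d) (a : F) (P : Polynomial E) :
    d (Polynomial.aeval a P) = Polynomial.aeval a (Polynomial.derivative P) • d a := by
  induction P using Polynomial.induction_on' with
  | add p q hp hq => rw [map_add, map_add, hp, hq, map_add, map_add, add_smul]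
  | monomial n c =>
    rw [Polynomial.aeval_monomial, Polynomial.derivative_monomial, Polynomial.aeval_monomial,
      Derivation.leibniz, Derivation.leibniz_pow,
      show d (algebraMap E F c) = 0 from h0 c.2, smul_zero, add_zero]
    simp only [map_mul, map_natCast]
    rw [← Nat.cast_smul_eq_nsmul F, smul_smul, smul_smul]

/-- a derivation killing `x` is zero if `F` is separable algebraic over `K(x)` -/
theorem derivation_eq_zero_of_isSeparable (d : Derivation K F M) {x : F} (hx : d x = 0)
    [Algebra.IsSeparable K⟮x⟯ F] (a : F) : d a = 0 := by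
  have h0 : K⟮x⟯ ≤ kerField d := by
    rw [IntermediateField.adjoin_le_iff]
    rintro _ rfl
    exact hx
  have hsep : IsSeparable K⟮x⟯ a := Algebra.IsSeparable.isSeparable K⟮x⟯ a
  have h1 := derivation_aeval_of_le d K⟮x⟯ h0 a (minpoly K⟮x⟯ a)
  rw [minpoly.aeval, map_zero] at h1
  have h2 : Polynomial.aeval a (Polynomial.derivative (minpoly K⟮x⟯ a)) ≠ 0 :=
    hsep.aeval_derivative_ne_zero (minpoly.aeval _ _)
  exact (smul_eq_zero.mp h1.symm).resolve_left h2

end Derivation

variable {K F : Type*} [Field K] [Field F] [Algebra K F]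

/-- `Ω[F⁄K]` is spanned by `dx` if `F` is separable algebraic over `K(x)`. -/
theorem span_D_eq_top_of_isSeparable {x : F} [Algebra.IsSeparable K⟮x⟯ F] :
    Submodule.span F {D K F x} = ⊤ := by
  set N := Submodule.span F {D K F x} with hN
  let d : Derivation K F (Ω[F⁄K] ⧸ N) := N.mkQ.compDer (D K F)
  have hdt : d x = 0 := by
    show N.mkQ (D K F x) = 0
    rw [Submodule.mkQ_apply, Submodule.Quotient.mk_eq_zero]
    exact Submodule.mem_span_singleton_self _
  have hd : ∀ a : F, D K F a ∈ N := by
    intro a
    have h := derivation_eq_zero_of_isSeparable d hdt a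
    rwa [show d a = N.mkQ (D K F a) from rfl, Submodule.mkQ_apply,
      Submodule.Quotient.mk_eq_zero] at h
  rw [eq_top_iff, ← KaehlerDifferential.span_range_derivation, Submodule.span_le]
  rintro _ ⟨a, rfl⟩
  exact hd a

theorem D_ne_zero_of_isSeparable [IsFF1 K F] {x : F} [Algebra.IsSeparable K⟮x⟯ F] :
    D K F x ≠ 0 := by
  intro h
  obtain ⟨v⟩ := IsFF1.nonempty_place (K := K) (F := F)
  obtain ⟨t, ht, -⟩ := exists_dCoord_eq v
  have h1 : D K F t ∈ Submodule.span F {D K F x} := by
    rw [span_D_eq_top_of_isSeparable]; trivial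
  rw [h, Submodule.span_zero_singleton, Submodule.mem_bot] at h1
  exact D_ne_zero_of_ord_eq_one v ht h1

theorem finrank_kaehler_of_isSeparable [IsFF1 K F] {x : F} [Algebra.IsSeparable K⟮x⟯ F] :
    Module.finrank F Ω[F⁄K] = 1 :=
  (finrank_eq_one_iff_of_nonzero (D K F x) D_ne_zero_of_isSeparable).mpr
    span_D_eq_top_of_isSeparable

end Fermat.Agent.RR

namespace Fermat.Agent.RED.IsSepParam

open Fermat.Agent.RR

variable {K F : Type*} [Field K] [Field F] [Algebra K F] {x : F}

theorem finrank_kaehler [IsAlgClosed K] (hx : IsSepParam K x) : Module.finrank F Ω[F⁄K] = 1 := by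
  have := hx.isFF1
  have := hx.separable
  exact finrank_kaehler_of_isSeparable (x := x)

theorem D_ne_zero [IsAlgClosed K] (hx : IsSepParam K x) : D K F x ≠ 0 := by
  have := hx.isFF1
  have := hx.separable
  exact D_ne_zero_of_isSeparable

/-- the Riemann genus is the adelic genus -/
theorem gR_eq_genusFF [IsAlgClosed K] (hx : IsSepParam K x) : gR K F = genusFF K F := by
  have := hx.isFF1
  obtain ⟨c, hc⟩ := hx.exists_riemann
  obtain ⟨v⟩ := IsFF1.nonempty_place (K := K) (F := F)
  set n : ℤ := max c (2 * (genusFF K F : ℤ) - 1) with hn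
  have hdeg : Divisor.degree (Finsupp.single v n) = n := RR.degree_single v n
  have h1 := hc (Finsupp.single v n) (by rw [hdeg]; exact le_max_left _ _)
  have h2 := RR.ell_eq_of_lt (D := Finsupp.single v n) (by
    rw [hdeg]
    have := le_max_right c (2 * (genusFF K F : ℤ) - 1)
    omega)
  have h3 : (RED.ell (Finsupp.single v n) : ℤ) = (RR.ell (Finsupp.single v n) : ℤ) := rfl
  rw [h3, h2] at h1
  omega

end Fermat.Agent.RED.IsSepParam
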