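import Fermat.Agent.RR.FinitePotent

/-!
# RR library, WP R4b: Tate's abstract residue (Tate, "Residues of differentials on curves", §2)

`k` a field, `R` a commutative `k`-algebra, `V` an `R`-module, `A ⊆ V` a `k`-subspace with
`f A ≺ A` for all `f : R`.  Then `resPair A f g = "Res (f dg)" = Tr ([π, g] f)` for any
"almost projection" `π` onto `A`.
-/

set_option autoImplicit false

open LinearMap Module KaehlerDifferential

namespace Fermat.Agent.RR

variable {k : Type*} [Field k] {R : Type*} [CommRing R] [Algebra k R]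
  {V : Type*} [AddCommGroup V] [Module k V] [Module R V] [IsScalarTower k R V]

variable (k V) in
/-- multiplication by `f : R` as a `k`-endomorphism of `V` -/
noncomputable def mulE (f : R) : End k V := Algebra.lsmul k k V f

@[simp] theorem mulE_apply (f : R) (x : V) : mulE k V f x = f • x := rfl

theorem mulE_mul (f g : R) : mulE k V (f * g) = mulE k V f * mulE k V g :=
  map_mul (Algebra.lsmul k k V) f g

theorem mulE_add (f g : R) : mulE k V (f + g) = mulE k V f + mulE k V g :=
  map_add (Algebra.lsmul k k V) f g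

theorem mulE_one : mulE k V (1 : R) = 1 := map_one (Algebra.lsmul k k V)

theorem mulE_smul (c : k) (f : R) : mulE k V (c • f) = c • mulE k V f :=
  map_smul (Algebra.lsmul k k V) c f

theorem mulE_algebraMap (c : k) : mulE k V (algebraMap k R c) = c • (1 : End k V) := by
  rw [Algebra.algebraMap_eq_smul_one, mulE_smul, mulE_one]

theorem mulE_comm (f g : R) : mulE k V f * mulE k V g = mulE k V g * mulE k V f := by
  rw [← mulE_mul, ← mulE_mul, mul_comm]

variable (R) in
/-- `f A ≺ A` for all `f : R`. -/
def AlmostStable (A : Submodule k V) : Prop := ∀ f : R, mulE k V f ∈ E A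

/-- `π` is a projection onto `A` up to finite dimensional errors. -/
structure IsAlmostProj (A : Submodule k V) (π : End k V) : Prop where
  mem_E1 : π ∈ E1 A
  mem_E2 : 1 - π ∈ E2 A

theorem exists_proj (A : Submodule k V) :
    ∃ π : End k V, (∀ x, π x ∈ A) ∧ ∀ x ∈ A, π x = x := by
  obtain ⟨g, hg⟩ := A.subtype.exists_leftInverse_of_injective (by simp)
  refine ⟨A.subtype ∘ₗ g, fun x => (g x).2, fun x hx => ?_⟩
  have := LinearMap.congr_fun hg ⟨x, hx⟩
  simp only [LinearMap.comp_apply, Submodule.subtype_apply, LinearMap.id_apply] at this ⊢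
  rw [this]

/-- a chosen projection onto `A` -/
noncomputable def proj (A : Submodule k V) : End k V := (exists_proj A).choose

theorem proj_mem (A : Submodule k V) (x : V) : proj A x ∈ A := (exists_proj A).choose_spec.1 x

theorem proj_of_mem (A : Submodule k V) {x : V} (hx : x ∈ A) : proj A x = x :=
  (exists_proj A).choose_spec.2 x hx

theorem isAlmostProj_of_proj {A : Submodule k V} {π : End k V} (h1 : ∀ x, π x ∈ A)
    (h2 : ∀ x ∈ A, π x = x) : IsAlmostProj A π := by
  refine ⟨mem_E1.2 (Prec.of_le ?_), mem_E2.2 ?_⟩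
  · rintro _ ⟨x, rfl⟩
    exact h1 x
  · have : A.map (1 - π) = ⊥ := by
      rw [eq_bot_iff]
      rintro _ ⟨x, hx, rfl⟩
      simp [h2 x hx]
    rw [this]
    infer_instance

theorem isAlmostProj_proj (A : Submodule k V) : IsAlmostProj A (proj A) :=
  isAlmostProj_of_proj (proj_mem A) (fun _ => proj_of_mem A)

/-- the operator `[π, g] f` -/
noncomputable def resOp (π : End k V) (f g : R) : End k V :=
  (π * mulE k V g - mulE k V g * π) * mulE k V f

/-- Tate's residue of `f dg` -/
noncomputable def resPair (A : Submodule k V) (f g : R) : k := ftr (resOp (proj A) f g)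

theorem IsAlmostProj.sub_mem_E0 {A : Submodule k V} {π π' : End k V} (h : IsAlmostProj A π)
    (h' : IsAlmostProj A π') : π - π' ∈ E0 A := by
  refine mem_E0.2 ⟨(E1 A).sub_mem h.mem_E1 h'.mem_E1, ?_⟩
  have : π - π' = (1 - π') - (1 - π) := by abel
  rw [this]
  exact (E2 A).sub_mem h'.mem_E2 h.mem_E2

/-- the commutator `[π, g]` lies in `E₀` -/
theorem IsAlmostProj.comm_mem_E0 {A : Submodule k V} (hA : AlmostStable R A) {π : End k V}
    (hπ : IsAlmostProj A π) (g : R) : π * mulE k V g - mulE k V g * π ∈ E0 A := by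
  refine mem_E0.2 ⟨(E1 A).sub_mem (mul_mem_E1_right hπ.mem_E1 _)
    (mul_mem_E1_left hπ.mem_E1 (hA g)), ?_⟩
  have : π * mulE k V g - mulE k V g * π =
      mulE k V g * (1 - π) - (1 - π) * mulE k V g := by noncomm_ring
  rw [this]
  exact (E2 A).sub_mem (mul_mem_E2_left hπ.mem_E2 _) (mul_mem_E2_right hπ.mem_E2 (hA g))

theorem resOp_mem_E0 {A : Submodule k V} (hA : AlmostStable R A) {π : End k V}
    (hπ : IsAlmostProj A π) (f g : R) : resOp π f g ∈ E0 A :=
  mul_mem_E0_right (hπ.comm_mem_E0 hA g) (hA f)

/-- for `ν ∈ E₀` the operator `[ν, g] f` has trace zero -/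
theorem ftr_resOp_eq_zero {A : Submodule k V} (hA : AlmostStable R A) {ν : End k V}
    (hν : ν ∈ E0 A) (f g : R) : ftr (resOp ν f g) = 0 := by
  have h1 : ν * mulE k V g * mulE k V f ∈ E0 A :=
    mul_mem_E0_right (mul_mem_E0_right hν (hA g)) (hA f)
  have h2 : mulE k V g * ν * mulE k V f ∈ E0 A :=
    mul_mem_E0_right (mul_mem_E0_left hν (hA g)) (hA f)
  have h3 : ftr (mulE k V g * ν * mulE k V f) = ftr (ν * mulE k V g * mulE k V f) := by
    rw [mul_assoc, ← ftr_mul_comm (mul_mem_E0_right hν (hA f)) (hA g), mul_assoc, mul_assoc,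
      mulE_comm f g]
  rw [resOp, sub_mul, ftr_sub h1 h2, h3, sub_self]

theorem resOp_sub_proj (π π' : End k V) (f g : R) :
    resOp (π - π') f g = resOp π f g - resOp π' f g := by
  simp only [resOp]
  noncomm_ring

/-- independence of the almost projection -/
theorem resPair_eq {A : Submodule k V} (hA : AlmostStable R A) {π : End k V}
    (hπ : IsAlmostProj A π) (f g : R) : resPair A f g = ftr (resOp π f g) := by
  have h0 := ftr_resOp_eq_zero hA ((isAlmostProj_proj A).sub_mem_E0 hπ) f g
  rw [resOp_sub_proj, ftr_sub (resOp_mem_E0 hA (isAlmostProj_proj A) f g)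
    (resOp_mem_E0 hA hπ f g), sub_eq_zero] at h0
  exact h0

theorem resPair_add_left {A : Submodule k V} (hA : AlmostStable R A) (f f' g : R) :
    resPair A (f + f') g = resPair A f g + resPair A f' g := by
  have hπ := isAlmostProj_proj A
  rw [resPair, resPair, resPair, ← ftr_add (resOp_mem_E0 hA hπ f g) (resOp_mem_E0 hA hπ f' g)]
  congr 1
  simp only [resOp, mulE_add, mul_add]

theorem resPair_smul_left {A : Submodule k V} (hA : AlmostStable R A) (c : k) (f g : R) :
    resPair A (c • f) g = c * resPair A f g := by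
  rw [resPair, resPair, ← ftr_smul]
  congr 1
  simp only [resOp, mulE_smul, mul_smul_comm]

theorem resPair_add_right {A : Submodule k V} (hA : AlmostStable R A) (f g g' : R) :
    resPair A f (g + g') = resPair A f g + resPair A f g' := by
  have hπ := isAlmostProj_proj A
  rw [resPair, resPair, resPair, ← ftr_add (resOp_mem_E0 hA hπ f g) (resOp_mem_E0 hA hπ f g')]
  congr 1
  simp only [resOp, mulE_add]
  noncomm_ring

theorem resPair_algebraMap_right (A : Submodule k V) (f : R) (c : k) :
    resPair A f (algebraMap k R c) = 0 := by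
  have : resOp (proj A) f (algebraMap k R c) = 0 := by
    simp only [resOp, mulE_algebraMap, mul_smul_comm, smul_mul_assoc, mul_one, one_mul, sub_self,
      zero_mul]
  rw [resPair, this]
  exact ftr_eq_zero_of_pow_eq_zero 0 1 (pow_one 0)

/-- Leibniz rule -/
theorem resPair_mul_right {A : Submodule k V} (hA : AlmostStable R A) (f g h : R) :
    resPair A f (g * h) = resPair A (f * g) h + resPair A (f * h) g := by
  have hπ := isAlmostProj_proj A
  set π := proj A with hπdef
  have h1 : resOp π f (g * h) = mulE k V g * resOp π f h + resOp π (f * h) g := by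
    simp only [resOp, mulE_mul]
    rw [mulE_comm f h]
    noncomm_ring
  have h2 : ftr (mulE k V g * resOp π f h) = ftr (resOp π (f * g) h) := by
    rw [← ftr_mul_comm (resOp_mem_E0 hA hπ f h) (hA g)]
    congr 1
    simp only [resOp, mulE_mul, mul_assoc]
  rw [resPair, resPair, resPair, ← hπdef, h1,
    ftr_add (mul_mem_E0_left (resOp_mem_E0 hA hπ f h) (hA g)) (resOp_mem_E0 hA hπ (f * h) g), h2]

theorem resPair_smul_right {A : Submodule k V} (hA : AlmostStable R A) (c : k) (f g : R) :
    resPair A f (c • g) = c * resPair A f g := by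
  rw [resPair, resPair, ← ftr_smul]
  congr 1
  simp only [resOp, mulE_smul, mul_smul_comm, smul_mul_assoc, ← smul_sub]

/-- for an idempotent `e`, `Res (h e de) = 0` -/
theorem resPair_mul_idem_self {A : Submodule k V} (hA : AlmostStable R A) {e : R}
    (he : e * e = e) (h : R) : resPair A (h * e) e = 0 := by
  have h1 := resPair_mul_right hA (h * e) e e
  rw [he, mul_assoc, he] at h1
  have h2 : resPair A (h * e) e + 0 = resPair A (h * e) e + resPair A (h * e) e := by
    rw [add_zero]; exact h1
  exact (add_left_cancel h2).symm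

/-- for an idempotent `e` one has `e dg = d(e g)` -/
theorem resPair_idem {A : Submodule k V} (hA : AlmostStable R A) {e : R} (he : e * e = e)
    (f g : R) : resPair A (f * e) g = resPair A (f * e) (e * g) := by
  rw [resPair_mul_right hA (f * e) e g, mul_assoc f e e, he]
  have : f * e * g = (f * g) * e := by ring
  rw [this, resPair_mul_idem_self hA he, add_zero]

/-! ### The pairing with Kähler differentials -/

/-- `Module.Dual k R` with the `F`-module structure `(x • λ) α = λ (x α)` -/
def DualTw (k F R : Type*) [Field k] [CommRing R] [Algebra k R] [CommRing F] [Algebra k F]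
    [Algebra F R] [IsScalarTower k F R] : Type _ := Module.Dual k R

section DualTw

variable (F : Type*) [CommRing F] [Algebra k F] [Algebra F R] [IsScalarTower k F R]

noncomputable instance DualTw.instAddCommGroup : AddCommGroup (DualTw k F R) :=
  inferInstanceAs (AddCommGroup (Module.Dual k R))

noncomputable instance DualTw.instModuleBase : Module k (DualTw k F R) :=
  inferInstanceAs (Module k (Module.Dual k R))

/-- the underlying linear form -/
def DualTw.toDual (l : DualTw k F R) : Module.Dual k R := l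

/-- the twisted form of a linear form -/
def DualTw.ofDual (l : Module.Dual k R) : DualTw k F R := l

noncomputable instance DualTw.instModuleTw : Module F (DualTw k F R) where
  smul x l := DualTw.ofDual F (DualTw.toDual F l ∘ₗ Algebra.lsmul k k R x)
  one_smul l := by
    show DualTw.ofDual F (DualTw.toDual F l ∘ₗ Algebra.lsmul k k R (1 : F)) = l
    rw [map_one]; rfl
  mul_smul x y l := by
    show DualTw.ofDual F (DualTw.toDual F l ∘ₗ Algebra.lsmul k k R (x * y)) =
      DualTw.ofDual F ((DualTw.toDual F l ∘ₗ Algebra.lsmul k k R y) ∘ₗ Algebra.lsmul k k R x)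
    rw [mul_comm x y, map_mul]; rfl
  smul_zero x := by
    show DualTw.ofDual F ((0 : Module.Dual k R) ∘ₗ Algebra.lsmul k k R x) = 0
    rw [LinearMap.zero_comp]; rfl
  smul_add x l l' := by
    show DualTw.ofDual F ((DualTw.toDual F l + DualTw.toDual F l') ∘ₗ Algebra.lsmul k k R x) =
      DualTw.ofDual F (DualTw.toDual F l ∘ₗ Algebra.lsmul k k R x +
        DualTw.toDual F l' ∘ₗ Algebra.lsmul k k R x)
    rw [LinearMap.add_comp]
  add_smul x y l := by
    show DualTw.ofDual F (DualTw.toDual F l ∘ₗ Algebra.lsmul k k R (x + y)) =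
      DualTw.ofDual F (DualTw.toDual F l ∘ₗ Algebra.lsmul k k R x +
        DualTw.toDual F l ∘ₗ Algebra.lsmul k k R y)
    rw [map_add, LinearMap.comp_add]
  zero_smul l := by
    show DualTw.ofDual F (DualTw.toDual F l ∘ₗ Algebra.lsmul k k R (0 : F)) = 0
    rw [map_zero, LinearMap.comp_zero]; rfl

theorem DualTw.smul_apply (x : F) (l : DualTw k F R) (α : R) :
    DualTw.toDual F (x • l) α = DualTw.toDual F l (x • α) := rfl

instance DualTw.instIsScalarTower : IsScalarTower k F (DualTw k F R) where
  smul_assoc c x l := by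
    show DualTw.ofDual F (DualTw.toDual F l ∘ₗ Algebra.lsmul k k R (c • x)) =
      DualTw.ofDual F (c • (DualTw.toDual F l ∘ₗ Algebra.lsmul k k R x))
    rw [map_smul, LinearMap.comp_smul]

/-- the identity `DualTw k F R → Module.Dual k R` as a `k`-linear map -/
noncomputable def DualTw.toDualL : DualTw k F R →ₗ[k] Module.Dual k R := LinearMap.id

theorem DualTw.toDualL_apply (l : DualTw k F R) : DualTw.toDualL F l = DualTw.toDual F l := rfl

/-- `g ↦ (α ↦ Res (α dg))` as a `k`-linear map -/
noncomputable def resLin (A : Submodule k V) (hA : AlmostStable R A) : F →ₗ[k] DualTw k F R where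
  toFun g := DualTw.ofDual F
    { toFun := fun α => resPair A α (algebraMap F R g)
      map_add' := fun α α' => resPair_add_left hA α α' _
      map_smul' := fun c α => resPair_smul_left hA c α _ }
  map_add' g g' := by
    apply LinearMap.ext (M := R) (M₃ := k)
    intro α
    show resPair A α (algebraMap F R (g + g')) =
      resPair A α (algebraMap F R g) + resPair A α (algebraMap F R g')
    rw [map_add, resPair_add_right hA]
  map_smul' c g := by
    apply LinearMap.ext (M := R) (M₃ := k)
    intro α
    show resPair A α (algebraMap F R (c • g)) = c * resPair A α (algebraMap F R g)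
    rw [Algebra.smul_def, map_mul, ← IsScalarTower.algebraMap_apply, ← Algebra.smul_def,
      resPair_smul_right hA]

theorem resLin_apply (A : Submodule k V) (hA : AlmostStable R A) (g : F) (α : R) :
    DualTw.toDual F (resLin F A hA g) α = resPair A α (algebraMap F R g) := rfl

/-- `g ↦ (α ↦ Res (α dg))` as a derivation -/
noncomputable def resDer (A : Submodule k V) (hA : AlmostStable R A) :
    Derivation k F (DualTw k F R) :=
  Derivation.mk' (resLin F A hA) (by
    intro a b
    apply LinearMap.ext (M := R) (M₃ := k)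
    intro α
    show resPair A α (algebraMap F R (a * b)) =
      resPair A (a • α) (algebraMap F R b) + resPair A (b • α) (algebraMap F R a)
    rw [map_mul, resPair_mul_right hA, Algebra.smul_def, Algebra.smul_def, mul_comm α,
      mul_comm α])

theorem resDer_apply (A : Submodule k V) (hA : AlmostStable R A) (g : F) (α : R) :
    DualTw.toDual F (resDer F A hA g) α = resPair A α (algebraMap F R g) := rfl

end DualTw

/-- Tate's Theorem 1, in the form we use: for a `k`-algebra `F` mapping to `R`, the pairing
`(ω, α) ↦ Res (α ω)`, `ω : Ω[F⁄k]`, `α : R`. -/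
theorem exists_weilOf (A : Submodule k V) (hA : AlmostStable R A)
    (F : Type*) [CommRing F] [Algebra k F] [Algebra F R] [IsScalarTower k F R] :
    ∃ w : Ω[F⁄k] →ₗ[k] Module.Dual k R, ∀ (f g : F) (α : R),
      w (f • D k F g) α = resPair A (α * algebraMap F R f) (algebraMap F R g) := by
  refine ⟨DualTw.toDualL F ∘ₗ (resDer F A hA).liftKaehlerDifferential.restrictScalars k, ?_⟩
  intro f g α
  rw [LinearMap.comp_apply, LinearMap.restrictScalars_apply, map_smul,
    Derivation.liftKaehlerDifferential_comp_D, DualTw.toDualL_apply, DualTw.smul_apply,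
    resDer_apply, Algebra.smul_def, mul_comm]

/-- `weilOf A hA F ω α = Res_A (α ω)` -/
noncomputable def weilOf (A : Submodule k V) (hA : AlmostStable R A)
    (F : Type*) [CommRing F] [Algebra k F] [Algebra F R] [IsScalarTower k F R] :
    Ω[F⁄k] →ₗ[k] Module.Dual k R :=
  (exists_weilOf A hA F).choose

theorem weilOf_smul_D (A : Submodule k V) (hA : AlmostStable R A)
    (F : Type*) [CommRing F] [Algebra k F] [Algebra F R] [IsScalarTower k F R]
    (f g : F) (α : R) :
    weilOf A hA F (f • D k F g) α = resPair A (α * algebraMap F R f) (algebraMap F R g) :=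
  (exists_weilOf A hA F).choose_spec f g α

theorem weilOf_smul (A : Submodule k V) (hA : AlmostStable R A)
    (F : Type*) [CommRing F] [Algebra k F] [Algebra F R] [IsScalarTower k F R]
    (x : F) (ω : Ω[F⁄k]) (α : R) :
    weilOf A hA F (x • ω) α = weilOf A hA F ω (x • α) := by
  have hω : ω ∈ Submodule.span F (Set.range (D k F)) := by
    rw [KaehlerDifferential.span_range_derivation]; trivial
  induction hω using Submodule.span_induction generalizing x α with
  | mem ω h =>
    obtain ⟨g, rfl⟩ := h
    have h1 := weilOf_smul_D A hA F 1 g (x • α)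
    rw [one_smul] at h1
    rw [weilOf_smul_D, h1, map_one, mul_one, Algebra.smul_def, mul_comm]
  | zero => simp
  | add ω ω' _ _ h h' =>
    rw [smul_add, map_add, map_add, LinearMap.add_apply, LinearMap.add_apply, h, h']
  | smul a ω _ h =>
    rw [smul_smul, h, h, smul_smul, mul_comm]

/-- if `π` is a projection onto `B`, and `B` is stable under `f` and `g`, then `[π, g] f` has
square zero -/
theorem resOp_sq_eq_zero {B : Submodule k V} {π : End k V} (h1 : ∀ x, π x ∈ B)
    (h2 : ∀ x ∈ B, π x = x) {f g : R}
    (hf : ∀ x ∈ B, f • x ∈ B) (hg : ∀ x ∈ B, g • x ∈ B) : resOp π f g ^ 2 = 0 := by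
  have happ : ∀ x, resOp π f g x = π (g • f • x) - g • π (f • x) := by
    intro x
    simp only [resOp, Module.End.mul_apply, LinearMap.sub_apply, mulE_apply]
  have hmem : ∀ x, resOp π f g x ∈ B := fun x => by
    rw [happ]
    exact B.sub_mem (h1 _) (hg _ (h1 _))
  have hzero : ∀ x ∈ B, resOp π f g x = 0 := fun x hx => by
    rw [happ, h2 _ (hg _ (hf _ hx)), h2 _ (hf _ hx), sub_self]
  ext x
  rw [pow_two, Module.End.mul_apply, hzero _ (hmem x), LinearMap.zero_apply]

/-- (R2) -/
theorem resPair_eq_zero_of_stable {A : Submodule k V} {f g : R}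
    (hf : ∀ x ∈ A, f • x ∈ A) (hg : ∀ x ∈ A, g • x ∈ A) : resPair A f g = 0 :=
  ftr_eq_zero_of_pow_eq_zero _ 2
    (resOp_sq_eq_zero (proj_mem A) (fun _ => proj_of_mem A) hf hg)

/-- (R4), in the case `dim A/gA = 1` -/
theorem resPair_inv_eq_one {A : Submodule k V} (hA : AlmostStable R A) {g h : R}
    (hgh : g * h = 1) (hg : ∀ x ∈ A, g • x ∈ A) {β : V} (hβ : β ∈ A)
    (hβ' : β ∉ A.map (mulE k V g))
    (hspan : ∀ x ∈ A, ∃ c : k, x - c • β ∈ A.map (mulE k V g)) :
    resPair A h g = 1 := by
  set θ : End k V := resOp (proj A) h g with hθ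
  have happ : ∀ x, θ x = proj A x - g • proj A (h • x) := by
    intro x
    simp only [hθ, resOp, Module.End.mul_apply, LinearMap.sub_apply, mulE_apply]
    rw [smul_smul, hgh, one_smul]
  have hker : ∀ a ∈ A, θ (g • a) = 0 := by
    intro a ha
    rw [happ, smul_smul, mul_comm h g, hgh, one_smul, proj_of_mem A ha,
      proj_of_mem A (hg a ha), sub_self]
  have hmem : ∀ x, θ x ∈ A := fun x => by
    rw [happ]
    exact A.sub_mem (proj_mem A _) (hg _ (proj_mem A _))
  have e : θ β = β - g • proj A (h • β) := by rw [happ, proj_of_mem A hβ]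
  have hθβ : θ (θ β) = θ β := by
    conv_lhs => rw [e, map_sub, hker _ (proj_mem A _), sub_zero]
  have hne : θ β ≠ 0 := by
    intro h0
    rw [e, sub_eq_zero] at h0
    exact hβ' ⟨_, proj_mem A (h • β), h0.symm⟩
  have hW : ∀ x ∈ Submodule.span k {θ β}, θ x ∈ Submodule.span k {θ β} := by
    intro x hx
    obtain ⟨c, rfl⟩ := Submodule.mem_span_singleton.1 hx
    rw [map_smul, hθβ]
    exact Submodule.mem_span_singleton.2 ⟨c, rfl⟩
  have hn : ∀ x, (θ ^ 2) x ∈ Submodule.span k {θ β} := by
    intro x
    obtain ⟨c, a, ha, hac⟩ := hspan _ (hmem x)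
    rw [mulE_apply] at hac
    have hx : θ x = g • a + c • β := by rw [hac]; abel
    rw [pow_two, Module.End.mul_apply, hx, map_add, hker a ha, zero_add, map_smul]
    exact Submodule.mem_span_singleton.2 ⟨c, rfl⟩
  have hone : θ.restrict hW = 1 := by
    ext ⟨x, hx⟩
    obtain ⟨c, rfl⟩ := Submodule.mem_span_singleton.1 hx
    simp only [LinearMap.coe_restrict_apply, Module.End.one_apply, map_smul, hθβ]
  rw [resPair, ← hθ, ftr_eq_trace_restrict θ (Submodule.span k {θ β}) hW 2 hn, hone,
    LinearMap.trace_one, finrank_span_singleton hne, Nat.cast_one]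

/-- the key to the residue theorem: if `B` is stable under `f` and `g`, `A ∩ B` is finite
dimensional and `A + B` has finite codimension, then the residue of `f dg` vanishes -/
theorem resPair_eq_zero_of_compl {A : Submodule k V} (hA : AlmostStable R A) (B : Submodule k V)
    {f g : R} (hf : ∀ x ∈ B, f • x ∈ B) (hg : ∀ x ∈ B, g • x ∈ B)
    (h1 : FiniteDimensional k ↥(A ⊓ B)) (h2 : FiniteDimensional k (V ⧸ (A ⊔ B))) :
    resPair A f g = 0 := by
  -- a complement `A'` of `A ⊓ B` in `A`
  obtain ⟨Q, hQ⟩ := Submodule.exists_isCompl ((A ⊓ B).comap A.subtype)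
  set A' : Submodule k V := Q.map A.subtype with hA'
  have hA'le : A' ≤ A := Submodule.map_subtype_le A Q
  have hdisj : Disjoint B A' := by
    rw [Submodule.disjoint_def]
    rintro x hxB ⟨q, hq, rfl⟩
    have hq' : q ∈ (A ⊓ B).comap A.subtype := ⟨q.2, hxB⟩
    have := (Submodule.disjoint_def.1 hQ.disjoint) q hq' hq
    rw [this, map_zero]
  have hdec : ∀ a ∈ A, ∃ a' ∈ A', ∃ b ∈ A ⊓ B, a = a' + b := by
    intro a ha
    have htop : (⟨a, ha⟩ : A) ∈ (A ⊓ B).comap A.subtype ⊔ Q := by
      rw [hQ.sup_eq_top]; trivial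
    obtain ⟨b, hb, q, hq, hbq⟩ := Submodule.mem_sup.1 htop
    refine ⟨q, ⟨q, hq, rfl⟩, b, hb, ?_⟩
    have := congrArg (A.subtype) hbq
    simp only [map_add, Submodule.subtype_apply] at this
    rw [← this, add_comm]
  -- a complement `U` of `A ⊔ B`
  obtain ⟨U, hU⟩ := Submodule.exists_isCompl (A ⊔ B)
  have : FiniteDimensional k U :=
    LinearEquiv.finiteDimensional (Submodule.quotientEquivOfIsCompl (A ⊔ B) U hU)
  have hle : A ⊔ B ≤ B ⊔ A' := by
    refine sup_le ?_ le_sup_left
    intro a ha
    obtain ⟨a', ha', b, hb, rfl⟩ := hdec a ha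
    exact Submodule.add_mem _ (Submodule.mem_sup_right ha') (Submodule.mem_sup_left hb.2)
  have hC : IsCompl B (A' ⊔ U) := by
    constructor
    · refine hdisj.disjoint_sup_right_of_disjoint_sup_left ?_
      exact hU.disjoint.mono_left (sup_le le_sup_right (hA'le.trans le_sup_left))
    · rw [codisjoint_iff, ← sup_assoc, eq_top_iff, ← hU.sup_eq_top]
      exact sup_le_sup_right hle U
  -- the projection onto `B` along `A' ⊔ U`
  set ρ : End k V := B.subtype ∘ₗ Submodule.projectionOnto B (A' ⊔ U) hC with hρ
  have hρB : ∀ x, ρ x ∈ B := fun x => (Submodule.projectionOnto B (A' ⊔ U) hC x).2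
  have hρid : ∀ x ∈ B, ρ x = x := fun x hx => by
    have := Submodule.projectionOnto_apply_left hC ⟨x, hx⟩
    simp only [hρ, LinearMap.comp_apply, Submodule.subtype_apply]
    rw [this]
  have hρ0 : ∀ x, ρ x = 0 ↔ x ∈ A' ⊔ U := fun x => by
    simp only [hρ, LinearMap.comp_apply, Submodule.subtype_apply, ZeroMemClass.coe_eq_zero]
    exact Submodule.projectionOnto_apply_eq_zero_iff hC
  have hπ : IsAlmostProj A (1 - ρ) := by
    refine ⟨mem_E1.2 ⟨U, inferInstance, ?_⟩, mem_E2.2 ?_⟩
    · rintro _ ⟨x, rfl⟩
      have : (1 - ρ) x ∈ A' ⊔ U := by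
        rw [← hρ0, LinearMap.sub_apply, Module.End.one_apply, map_sub, hρid _ (hρB x), sub_self]
      exact (sup_le_sup_right hA'le U) this
    · have hle' : A.map (1 - (1 - ρ)) ≤ A ⊓ B := by
        rintro _ ⟨a, ha, rfl⟩
        obtain ⟨a', ha', b, hb, rfl⟩ := hdec a ha
        have e1 : (1 - (1 - ρ)) (a' + b) = b := by
          rw [sub_sub_cancel, map_add, (hρ0 a').2 (Submodule.mem_sup_left ha'), zero_add,
            hρid b hb.2]
        rw [e1]
        exact hb
      exact Submodule.finiteDimensional_of_le hle'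
  have e : resOp (1 - ρ) f g = - resOp ρ f g := by
    simp only [resOp]
    noncomm_ring
  rw [resPair_eq hA hπ, e, ftr_neg,
    ftr_eq_zero_of_pow_eq_zero _ 2 (resOp_sq_eq_zero hρB hρid hf hg), neg_zero]

end Fermat.Agent.RR
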